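/-
Smooth affine curve algebra: rational points, base change domains, Dedekind property.
-/
import Mathlib

set_option autoImplicit false

noncomputable section

open TensorProduct KaehlerDifferential

namespace Fermat.Agent.Jac.Curve

universe u v w

/-- A maximal ideal of a finitely generated algebra over an algebraically closed field is the
kernel of a rational point. -/
theorem exists_algHom_ker_eq {k : Type u} [Field k] [IsAlgClosed k] {R : Type v} [CommRing R]
    [Algebra k R] [Algebra.FiniteType k R] (m : Ideal R) [m.IsMaximal] :
    ∃ φ : R →ₐ[k] k, ∀ r, φ r = 0 ↔ r ∈ m := by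
  letI : Field (R ⧸ m) := Ideal.Quotient.field m
  haveI : Algebra.FiniteType k (R ⧸ m) :=
    (Algebra.FiniteType.of_surjective (Ideal.Quotient.mkₐ k m) (Ideal.Quotient.mkₐ_surjective k m))
  haveI : Module.Finite k (R ⧸ m) := finite_of_finite_type_of_isJacobsonRing k (R ⧸ m)
  haveI : Algebra.IsIntegral k (R ⧸ m) := Algebra.IsIntegral.of_finite k (R ⧸ m)
  let e := AlgEquiv.ofBijective (Algebra.ofId k (R ⧸ m))
    IsAlgClosed.algebraMap_bijective_of_isIntegral
  refine ⟨e.symm.toAlgHom.comp (Ideal.Quotient.mkₐ k m), fun r => ?_⟩
  simp [Ideal.Quotient.eq_zero_iff_mem]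

/-- An element killed by every rational point of a reduced finitely generated algebra is zero. -/
theorem eq_zero_of_forall_algHom {k : Type u} [Field k] [IsAlgClosed k] {R : Type v} [CommRing R]
    [Algebra k R] [Algebra.FiniteType k R] [IsReduced R] {r : R} (h : ∀ φ : R →ₐ[k] k, φ r = 0) :
    r = 0 := by
  have : IsJacobsonRing R := isJacobsonRing_of_finiteType (A := k) (B := R)
  have hr : r ∈ (⊥ : Ideal R).jacobson := by
    refine Ideal.mem_sInf.2 fun {m} hm => ?_
    have := hm.2
    obtain ⟨φ, hφ⟩ := exists_algHom_ker_eq (k := k) m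
    exact (hφ r).1 (h φ)
  rw [isJacobsonRing_iff.1 ‹IsJacobsonRing R› ⊥ ((Ideal.isRadical_iff_quotient_reduced _).2
    (isReduced_of_injective (RingEquiv.quotientBot R) (RingEquiv.injective _)))] at hr
  exact Ideal.mem_bot.1 hr

/-- Base change of a finitely generated domain over an algebraically closed field is a domain. -/
theorem isDomain_tensor (k : Type u) [Field k] [IsAlgClosed k] (K : Type v) [Field K] [Algebra k K]
    (R : Type w) [CommRing R] [IsDomain R] [Algebra k R] [Algebra.FiniteType k R] :
    IsDomain (K ⊗[k] R) := by
  have hnt : Nontrivial (K ⊗[k] R) :=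
    (TensorProduct.equivFinsuppOfBasisLeft (Module.Free.chooseBasis k K)).toEquiv.nontrivial
  suffices NoZeroDivisors (K ⊗[k] R) from NoZeroDivisors.to_isDomain _
  constructor
  intro a b hab
  classical
  let B := Module.Free.chooseBasis k K
  let e := TensorProduct.equivFinsuppOfBasisLeft (N := R) B
  have hspec : ∀ (φ : R →ₐ[k] k) (z : K ⊗[k] R), Algebra.TensorProduct.rid k K K
      (Algebra.TensorProduct.map (AlgHom.id K K) φ z) = (e z).sum fun i r => φ r • B i := by
    intro φ z
    obtain ⟨f, rfl⟩ := e.symm.surjective z
    rw [e.apply_symm_apply]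
    induction f using Finsupp.induction_linear with
    | zero => simp
    | add f g hf hg =>
      rw [map_add, map_add, map_add, hf, hg,
        Finsupp.sum_add_index' (fun i => by simp) (fun i a b => by rw [map_add, add_smul])]
    | single i r => simp [e]
  have hzero : ∀ (φ : R →ₐ[k] k) (z : K ⊗[k] R), Algebra.TensorProduct.rid k K K
      (Algebra.TensorProduct.map (AlgHom.id K K) φ z) = 0 → ∀ i, φ (e z i) = 0 := by
    intro φ z hz
    rw [hspec] at hz
    have : Finsupp.linearCombination k B ((e z).mapRange φ (map_zero φ)) = 0 := by
      rw [← hz, Finsupp.linearCombination_apply, Finsupp.sum_mapRange_index (by simp)]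
    have h0 := linearIndependent_iff.1 B.linearIndependent _ this
    intro i
    have := DFunLike.congr_fun h0 i
    simpa using this
  by_contra hne
  simp only [not_or] at hne
  obtain ⟨i, hi⟩ : ∃ i, e a i ≠ 0 := by
    by_contra hc
    simp only [not_exists, not_not] at hc
    exact hne.1 (e.injective (Finsupp.ext (by simpa using hc)))
  obtain ⟨j, hj⟩ : ∃ j, e b j ≠ 0 := by
    by_contra hc
    simp only [not_exists, not_not] at hc
    exact hne.2 (e.injective (Finsupp.ext (by simpa using hc)))
  apply mul_ne_zero hi hj
  refine eq_zero_of_forall_algHom (k := k) fun φ => ?_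
  have := congrArg (fun z => Algebra.TensorProduct.rid k K K
    (Algebra.TensorProduct.map (AlgHom.id K K) φ z)) hab
  simp only [map_mul, map_zero, mul_eq_zero] at this
  rcases this with h | h
  · rw [map_mul, hzero φ a h i, zero_mul]
  · rw [map_mul, hzero φ b h j, mul_zero]

/-- A module is locally generated by one element. -/
def LocallyCyclic (A : Type u) (M : Type v) [CommRing A] [AddCommGroup M] [Module A M] : Prop :=
  ∀ m : Ideal A, m.IsMaximal → ∃ f ∉ m, ∃ ω : M, ∀ η : M, f • η ∈ Submodule.span A {ω}

/-- Base change preserves local cyclicity of differentials. -/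
theorem locallyCyclic_kaehler_tensor (k : Type u) [CommRing k] (K : Type v) [CommRing K]
    [Algebra k K] (R : Type w) [CommRing R] [Algebra k R] (h : LocallyCyclic R Ω[R⁄k]) :
    LocallyCyclic (K ⊗[k] R) Ω[(K ⊗[k] R)⁄K] := by
  intro m hm
  let ι : R →ₐ[k] K ⊗[k] R := Algebra.TensorProduct.includeRight
  letI : Algebra R (K ⊗[k] R) := Algebra.TensorProduct.rightAlgebra
  obtain ⟨m', hm', hle⟩ := Ideal.exists_le_maximal (m.comap ι.toRingHom)
    (Ideal.IsPrime.ne_top inferInstance)
  obtain ⟨f, hf, ω, hω⟩ := h m' hm'
  refine ⟨ι f, fun hmem => hf (hle hmem), map k K R (K ⊗[k] R) ω, fun η => ?_⟩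
  have hη : η ∈ Submodule.span (K ⊗[k] R) (Set.range (D K (K ⊗[k] R))) := by
    rw [span_range_derivation]; exact Submodule.mem_top
  induction hη using Submodule.span_induction with
  | mem y hy =>
    obtain ⟨z, rfl⟩ := hy
    induction z using TensorProduct.induction_on with
    | zero => simp
    | tmul a r =>
      have h1 : D K (K ⊗[k] R) (a ⊗ₜ r) = a • D K (K ⊗[k] R) (ι r) := by
        rw [← Derivation.map_smul]
        simp [ι, TensorProduct.smul_tmul', Algebra.TensorProduct.includeRight_apply]
      obtain ⟨b, hb⟩ := Submodule.mem_span_singleton.1 (hω (D k R r))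
      have h2 : ι f • D K (K ⊗[k] R) (ι r) = ι b • map k K R (K ⊗[k] R) ω := by
        have := congrArg (map k K R (K ⊗[k] R)) hb
        rw [map_smul, map_smul, map_D] at this
        exact this.symm
      rw [h1, smul_comm, h2]
      exact Submodule.smul_of_tower_mem _ a
        (Submodule.smul_mem _ _ (Submodule.mem_span_singleton_self _))
    | add x y hx hy => rw [map_add, smul_add]; exact Submodule.add_mem _ hx hy
  | zero => simp
  | add x y _ _ hx hy => rw [smul_add]; exact Submodule.add_mem _ hx hy
  | smul r x _ hx => rw [smul_comm]; exact Submodule.smul_mem _ r hx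

/-- At a rational point the maximal ideal is locally principal. -/
theorem exists_localGenerator {L : Type u} [Field L] {B : Type v} [CommRing B] [Algebra L B]
    (hΩ : LocallyCyclic B Ω[B⁄L]) (m : Ideal B) [hm : m.IsMaximal] (φ : B →ₐ[L] L)
    (hφ : ∀ b, φ b = 0 ↔ b ∈ m) :
    ∃ π ∈ m, m ≤ Ideal.span {π} ⊔ m ^ 2 := by
  have hsub : ∀ b, b - algebraMap L B (φ b) ∈ m := fun b => by
    rw [← hφ, map_sub, AlgHom.commutes]
    exact sub_self _
  let δ : B →ₗ[L] m.Cotangent :=
    { toFun := fun b => m.toCotangent ⟨b - algebraMap L B (φ b), hsub b⟩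
      map_add' := fun a b => by
        rw [← map_add]
        congr 1
        ext
        simp only [map_add, Submodule.coe_add]
        ring
      map_smul' := fun l a => by
        rw [RingHom.id_apply, ← algebraMap_smul B l (m.toCotangent _), ← map_smul]
        congr 1
        ext
        simp only [Algebra.smul_def, map_mul, AlgHom.commutes, Algebra.algebraMap_self,
          RingHom.id_apply, Submodule.coe_smul, smul_eq_mul, Submodule.coe_smul_of_tower]
        ring }
  let der : Derivation L B m.Cotangent := Derivation.mk' δ fun a b => by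
    simp only [δ, LinearMap.coe_mk, AddHom.coe_mk]
    rw [← map_smul, ← map_smul, ← map_add, m.toCotangent_eq, sq]
    simp only [Submodule.coe_add, Submodule.coe_smul, smul_eq_mul, map_mul]
    have := Ideal.mul_mem_mul (hsub a) (hsub b)
    convert! Ideal.neg_mem_iff _ |>.2 this using 1
    ring
  obtain ⟨f, hf, ω, hω⟩ := hΩ m hm
  obtain ⟨⟨π, hπ⟩, hπ'⟩ := m.toCotangent_surjective (der.liftKaehlerDifferential ω)
  refine ⟨π, hπ, fun x hx => ?_⟩
  obtain ⟨b, hb⟩ := Submodule.mem_span_singleton.1 (hω (D L B x))
  have h1 := congrArg der.liftKaehlerDifferential hb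
  have hx0 : φ x = 0 := (hφ x).2 hx
  rw [map_smul, map_smul, ← hπ', Derivation.liftKaehlerDifferential_comp_D] at h1
  have h2 : m.toCotangent (b • ⟨π, hπ⟩) = m.toCotangent (f • ⟨x, hx⟩) := by
    rw [map_smul, map_smul, h1]
    congr 1
    change m.toCotangent ⟨x - algebraMap L B (φ x), _⟩ = _
    congr 1
    ext
    simp [hx0]
  rw [m.toCotangent_eq] at h2
  simp only [Submodule.coe_smul, smul_eq_mul] at h2
  obtain ⟨g, i, hi, hg⟩ := hm.exists_inv hf
  have h3 : x = g * b * π + (i * x - g * (b * π - f * x)) := by linear_combination (-x) * hg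
  rw [h3]
  refine Submodule.add_mem_sup (Ideal.mul_mem_left _ _ (Ideal.mem_span_singleton_self π))
    (Submodule.sub_mem _ ?_ (Ideal.mul_mem_left _ _ h2))
  rw [sq]
  exact Ideal.mul_mem_mul hi hx

/-- At such a point the localisation is principal. -/
theorem isPrincipalIdealRing_localization {L : Type u} [Field L] {B : Type v} [CommRing B]
    [IsDomain B] [IsNoetherianRing B] [Algebra L B] (hΩ : LocallyCyclic B Ω[B⁄L]) (m : Ideal B)
    [hm : m.IsMaximal] (φ : B →ₐ[L] L) (hφ : ∀ b, φ b = 0 ↔ b ∈ m) :
    IsPrincipalIdealRing (Localization.AtPrime m) := by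
  obtain ⟨π, hπ, hle⟩ := exists_localGenerator hΩ m φ hφ
  have : IsDomain (Localization.AtPrime m) :=
    IsLocalization.isDomain_localization (Ideal.primeCompl_le_nonZeroDivisors m)
  have hmax : IsLocalRing.maximalIdeal (Localization.AtPrime m) =
      m.map (algebraMap B (Localization.AtPrime m)) :=
    (Localization.AtPrime.map_eq_maximalIdeal).symm
  have hprinc : (IsLocalRing.maximalIdeal (Localization.AtPrime m)).IsPrincipal := by
    refine ⟨algebraMap B _ π, le_antisymm ?_ ?_⟩
    · refine Submodule.le_of_le_smul_of_le_jacobson_bot (I := IsLocalRing.maximalIdeal _)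
        (IsNoetherian.noetherian _) (IsLocalRing.maximalIdeal_le_jacobson _) ?_
      conv_lhs => rw [hmax]
      refine (Ideal.map_mono hle).trans (le_of_eq ?_)
      rw [Ideal.map_sup, Ideal.map_span, Set.image_singleton, Ideal.map_pow, ← hmax, sq]
      rfl
    · rw [Submodule.span_singleton_le_iff_mem, hmax]
      exact Ideal.mem_map_of_mem _ hπ
  exact ((tfae_of_isNoetherianRing_of_isLocalRing_of_isDomain _).out 4 0).1 hprinc

/-- A Noetherian domain whose local rings at maximal ideals are principal is Dedekind. -/
theorem isDedekindDomain_of_localization {B : Type v} [CommRing B] [IsDomain B]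
    [IsNoetherianRing B]
    (h : ∀ (m : Ideal B) [m.IsMaximal], IsPrincipalIdealRing (Localization.AtPrime m)) :
    IsDedekindDomain B := by
  have : IsDedekindDomainDvr B := ⟨fun P hP hPp => by
    obtain ⟨m, hm, hle⟩ := Ideal.exists_le_maximal P hPp.ne_top
    have := h m
    have : IsDomain (Localization.AtPrime m) :=
      IsLocalization.isDomain_localization (Ideal.primeCompl_le_nonZeroDivisors m)
    have hd : Disjoint (m.primeCompl : Set B) (P : Set B) :=
      Set.disjoint_left.2 fun x hx hxP => hx (hle hxP)
    have hp := IsLocalization.isPrime_of_isPrime_disjoint m.primeCompl (Localization.AtPrime m) P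
      hPp hd
    have hcomap := IsLocalization.comap_map_of_isPrime_disjoint m.primeCompl
      (Localization.AtPrime m) hPp hd
    have hne : P.map (algebraMap B (Localization.AtPrime m)) ≠ ⊥ := fun h0 => hP (by
      rw [← hcomap, h0]
      exact Ideal.comap_bot_of_injective _
        (IsLocalization.injective _ (Ideal.primeCompl_le_nonZeroDivisors m)))
    have hPm : P = m := by
      rw [← hcomap, IsLocalRing.eq_maximalIdeal (hp.isMaximal hne)]
      exact IsLocalization.AtPrime.comap_maximalIdeal (Localization.AtPrime m) m
    subst hPm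
    exact { not_a_field' := by
              rw [← IsLocalRing.eq_maximalIdeal (hp.isMaximal hne)]
              exact hne }⟩
  infer_instance

/-- A finitely generated domain over an algebraically closed field with locally cyclic
differentials is Dedekind. -/
theorem isDedekindDomain_of_kaehler {L : Type u} [Field L] [IsAlgClosed L] {B : Type v}
    [CommRing B] [IsDomain B] [Algebra L B] [Algebra.FiniteType L B]
    (hΩ : LocallyCyclic B Ω[B⁄L]) : IsDedekindDomain B := by
  have : IsNoetherianRing B := Algebra.FiniteType.isNoetherianRing L B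
  refine isDedekindDomain_of_localization fun m hm => ?_
  obtain ⟨φ, hφ⟩ := exists_algHom_ker_eq (k := L) m
  exact isPrincipalIdealRing_localization hΩ m φ hφ

/-- Descent of the Dedekind property along a faithfully flat extension. -/
theorem isDedekindDomain_of_faithfullyFlat (B : Type v) (B' : Type w) [CommRing B] [CommRing B']
    [Algebra B B'] [Module.FaithfullyFlat B B'] [IsDomain B] [IsNoetherianRing B]
    [IsDedekindDomain B'] : IsDedekindDomain B := by
  refine isDedekindDomain_of_localization fun m hm => ⟨fun J => ?_⟩
  have : IsDomain (Localization.AtPrime m) :=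
    IsLocalization.isDomain_localization (Ideal.primeCompl_le_nonZeroDivisors m)
  set I : Ideal B := J.comap (algebraMap B (Localization.AtPrime m))
  -- the ideal is flat, by descent
  have hI : Module.Flat B I := by
    rw [Module.Flat.iff_lTensor_preserves_injective_linearMap]
    intro N N' _ _ _ _ g hg
    apply (Module.FaithfullyFlat.lTensor_injective_iff_injective B B' _).1
    have hflat : Module.Flat B' (B' ⊗[B] I) := by
      rw [IsDedekindDomain.flat_iff_torsion_eq_bot, ← Submodule.isTorsionFree_iff_torsion_eq_bot]
      have hinj : Function.Injective ((Submodule.subtype I).baseChange B') :=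
        Module.Flat.lTensor_preserves_injective_linearMap (M := B') (Submodule.subtype I)
          Subtype.val_injective
      exact Function.Injective.moduleIsTorsionFree
        (⇑((AlgebraTensorModule.rid B B' B').toLinearMap ∘ₗ (Submodule.subtype I).baseChange B'))
        ((AlgebraTensorModule.rid B B' B').injective.comp hinj) (fun r x => by simp)
    have hg' : Function.Injective (g.baseChange B') :=
      Module.Flat.lTensor_preserves_injective_linearMap _ hg
    have := Module.Flat.lTensor_preserves_injective_linearMap (M := B' ⊗[B] I) (g.baseChange B') hg'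
    intro a b hab
    apply (AlgebraTensorModule.distribBaseChange B B' I N).injective
    apply this
    have key : ∀ z, (g.baseChange B').lTensor (B' ⊗[B] I)
        (AlgebraTensorModule.distribBaseChange B B' I N z) =
        AlgebraTensorModule.distribBaseChange B B' I N' ((g.lTensor I).baseChange B' z) := by
      intro z
      induction z using TensorProduct.induction_on with
      | zero => simp
      | tmul s y =>
        induction y using TensorProduct.induction_on with
        | zero => simp
        | tmul i n => simp
        | add y y' hy hy' => simp [tmul_add, hy, hy']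
      | add z z' hz hz' => simp [hz, hz']
    rw [key, key]
    exact congrArg _ hab
  let φ := IsLocalization.map_under m.primeCompl (Localization.AtPrime m) J
  have hJ : Module.Flat (Localization.AtPrime m) (Localization.AtPrime m ⊗[B] I) := inferInstance
  have : Module.Flat (Localization.AtPrime m) J := by
    let e : Localization.AtPrime m ⊗[B] I →ₗ[Localization.AtPrime m] Localization.AtPrime m :=
      (AlgebraTensorModule.rid B (Localization.AtPrime m) (Localization.AtPrime m)).toLinearMap ∘ₗ
        (Submodule.subtype I).baseChange (Localization.AtPrime m)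
    have hinj : Function.Injective e :=
      (AlgebraTensorModule.rid B (Localization.AtPrime m) (Localization.AtPrime m)).injective.comp
        (Module.Flat.lTensor_preserves_injective_linearMap _ Subtype.val_injective)
    have hrange : LinearMap.range e = J := by
      refine le_antisymm ?_ ?_
      · rintro _ ⟨z, rfl⟩
        induction z using TensorProduct.induction_on with
        | zero => simp
        | tmul s i =>
          simp only [e, LinearMap.comp_apply, LinearMap.baseChange_tmul, Submodule.subtype_apply,
            LinearEquiv.coe_coe, AlgebraTensorModule.rid_tmul, Algebra.smul_def]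
          exact J.mul_mem_right _ i.2
        | add z z' hz hz' => rw [map_add]; exact J.add_mem hz hz'
      · conv_lhs => rw [← φ]
        rw [Ideal.map_le_iff_le_comap]
        intro i hi
        exact ⟨1 ⊗ₜ ⟨i, hi⟩, by simp [e, Algebra.smul_def]⟩
    exact hrange ▸ Module.Flat.of_linearEquiv (LinearEquiv.ofInjective e hinj).symm
  have : IsNoetherianRing (Localization.AtPrime m) :=
    IsLocalization.isNoetherianRing m.primeCompl _ inferInstance
  have : Module.Free (Localization.AtPrime m) J := Module.free_of_flat_of_isLocalRing
  let b := Module.Free.chooseBasis (Localization.AtPrime m) J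
  by_cases hne : IsEmpty (Module.Free.ChooseBasisIndex (Localization.AtPrime m) J)
  · have : Subsingleton J := b.repr.toEquiv.subsingleton
    have hJ0 : J = ⊥ := eq_bot_iff.2 fun x hx => by
      simpa using Subtype.ext_iff.1 (Subsingleton.elim (⟨x, hx⟩ : J) 0)
    exact ⟨0, by rw [hJ0]; simp⟩
  obtain ⟨i⟩ := not_isEmpty_iff.1 hne
  have hsub : Subsingleton (Module.Free.ChooseBasisIndex (Localization.AtPrime m) J) := ⟨fun i j => by
    by_contra hij
    have h : (b j : Localization.AtPrime m) • b i - (b i : Localization.AtPrime m) • b j = 0 :=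
      Subtype.ext (by simp [mul_comm])
    have := congrArg (fun z => b.repr z i) h
    simp [Ne.symm hij] at this
    exact b.ne_zero j this⟩
  refine ⟨(b i : Localization.AtPrime m), le_antisymm (fun x hx => ?_)
    (by rw [Submodule.span_singleton_le_iff_mem]; exact (b i).2)⟩
  have hx' := b.sum_repr ⟨x, hx⟩
  rw [Fintype.sum_subsingleton _ i] at hx'
  exact Submodule.mem_span_singleton.2 ⟨_, congrArg Subtype.val hx'⟩

/-- Base change of a finitely generated domain with locally cyclic differentials over an
algebraically closed field to any field is Dedekind. -/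
theorem isDedekindDomain_tensor (k : Type u) [Field k] [IsAlgClosed k] (K : Type u) [Field K]
    [Algebra k K] (R : Type u) [CommRing R] [IsDomain R] [Algebra k R] [Algebra.FiniteType k R]
    (hΩ : LocallyCyclic R Ω[R⁄k]) : IsDedekindDomain (K ⊗[k] R) := by
  let L := AlgebraicClosure K
  have : IsDomain (K ⊗[k] R) := isDomain_tensor k K R
  have : IsDomain (L ⊗[k] R) := isDomain_tensor k L R
  have hD : IsDedekindDomain (L ⊗[k] R) :=
    isDedekindDomain_of_kaehler (L := L) (locallyCyclic_kaehler_tensor k L R hΩ)
  have : IsNoetherianRing (K ⊗[k] R) := Algebra.FiniteType.isNoetherianRing K _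
  letI : Algebra (K ⊗[k] R) (L ⊗[k] R) :=
    (Algebra.TensorProduct.map (IsScalarTower.toAlgHom k K L) (AlgHom.id k R)).toAlgebra
  let e : (K ⊗[k] R) ⊗[K] L ≃ₐ[K] L ⊗[k] R :=
    (Algebra.TensorProduct.comm K _ L).trans
      ((Algebra.TensorProduct.cancelBaseChange k K L L R).restrictScalars K)
  let eB : (K ⊗[k] R) ⊗[K] L ≃ₗ[K ⊗[k] R] L ⊗[k] R :=
    { e.toLinearEquiv with
      map_smul' := fun r x => by
        change e (r • x) = algebraMap (K ⊗[k] R) (L ⊗[k] R) r * e x
        rw [show r • x = algebraMap (K ⊗[k] R) ((K ⊗[k] R) ⊗[K] L) r * x from Algebra.smul_def r x, map_mul]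
        congr 1
        induction r using TensorProduct.induction_on with
        | zero => simp
        | tmul a r =>
          simp [e, RingHom.algebraMap_toAlgebra, Algebra.TensorProduct.algebraMap_apply,
            Algebra.smul_def]
        | add r r' hr hr' => rw [map_add, map_add, map_add, hr, hr'] }
  have : Module.FaithfullyFlat (K ⊗[k] R) (L ⊗[k] R) :=
    Module.FaithfullyFlat.of_linearEquiv _ _ eB.symm
  exact isDedekindDomain_of_faithfullyFlat _ (L ⊗[k] R)

end Fermat.Agent.Jac.Curve
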