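/-
Affine charts of a smooth proper curve and its function field.
-/
import Fermat.Agent.Jac.Curve.Algebra
import Fermat.Agent.Jac.Sections
import Fermat.Agent.Jac.Model

set_option autoImplicit false
set_option linter.unusedSectionVars false

noncomputable section

open CategoryTheory AlgebraicGeometry TopologicalSpace Opposite KaehlerDifferential

namespace Fermat.Agent.Jac.Curve

universe u

variable {k : Type u} [Field k] {C : Scheme.{u}} (c : C ⟶ Spec (CommRingCat.of k))

theorem res_structureHom {U V : C.Opens} (h : V ≤ U) (a : k) :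
    res h (structureHom c U a) = structureHom c V a :=
  ConcreteCategory.congr_hom
    (Scheme.Hom.appLE_map c (U := ⊤) (show U ≤ c ⁻¹ᵁ ⊤ from fun _ _ => trivial) (homOfLE h).op) _

/-- The function field, as an algebra over the ground field. -/
def FunField (_c : C ⟶ Spec (CommRingCat.of k)) [IsIntegral C] : Type u := C.functionField

variable [IsIntegral C]

instance : Field (FunField c) := inferInstanceAs (Field C.functionField)

instance nonempty_top : Nonempty (⊤ : C.Opens) := ⟨⟨genericPoint C, trivial⟩⟩

/-- Functions on a nonempty open as rational functions. -/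
def sectionHom (U : C.Opens) [Nonempty U] : Γ(C, U) →+* FunField c :=
  (C.germToFunctionField U).hom

theorem sectionHom_res {U V : C.Opens} [Nonempty U] [Nonempty V] (h : V ≤ U) (a : Γ(C, U)) :
    sectionHom c V (res h a) = sectionHom c U a :=
  C.presheaf.germ_res_apply (homOfLE h) _ _ a

theorem sectionHom_injective (U : C.Opens) [Nonempty U] :
    Function.Injective (sectionHom c U) :=
  C.germToFunctionField_injective U

instance : Algebra k (FunField c) := ((sectionHom c ⊤).comp (structureHom c ⊤)).toAlgebra

theorem sectionHom_structureHom (U : C.Opens) [Nonempty U] (a : k) :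
    sectionHom c U (structureHom c U a) = algebraMap k (FunField c) a := by
  rw [← res_structureHom c (le_top : U ≤ ⊤), sectionHom_res]
  rfl

/-- Germs at a point as rational functions. -/
def stalkHom (x : C) : C.presheaf.stalk x →+* FunField c :=
  algebraMap (C.presheaf.stalk x) C.functionField

theorem stalkHom_injective (x : C) : Function.Injective (stalkHom c x) :=
  IsFractionRing.injective (C.presheaf.stalk x) C.functionField

theorem stalkHom_germ (U : C.Opens) [Nonempty U] (x : C) (hx : x ∈ U) (a : Γ(C, U)) :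
    stalkHom c x (C.presheaf.germ U x hx a) = sectionHom c U a :=
  C.presheaf.germ_stalkSpecializes_apply hx ((genericPoint_spec C).specializes trivial) a

/-- Rational functions regular at a point. -/
def regularAt (x : C) : Subring (FunField c) := (stalkHom c x).range

theorem sectionHom_mem (U : C.Opens) [Nonempty U] {x : C} (hx : x ∈ U) (a : Γ(C, U)) :
    sectionHom c U a ∈ regularAt c x :=
  ⟨_, stalkHom_germ c U x hx a⟩

theorem exists_section_of_mem {x : C} {f : FunField c} (hf : f ∈ regularAt c x) :
    ∃ (U : C.Opens) (_ : Nonempty U) (_ : x ∈ U) (a : Γ(C, U)), sectionHom c U a = f := by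
  obtain ⟨s, rfl⟩ := hf
  obtain ⟨U, hU, a, rfl⟩ := C.presheaf.exists_germ_eq s
  have : Nonempty U := ⟨⟨x, hU⟩⟩
  exact ⟨U, this, hU, a, (stalkHom_germ c U x hU a).symm⟩

/-- A rational function regular at all points of an open set is a function on it. -/
theorem exists_sectionHom_eq (V : C.Opens) [Nonempty V] {f : FunField c}
    (hf : ∀ x ∈ V, f ∈ regularAt c x) : ∃ a : Γ(C, V), sectionHom c V a = f := by
  choose U hne hxU a ha using fun x : V => exists_section_of_mem c (hf x.1 x.2)
  obtain ⟨s, hs, -⟩ := sections_glue U (fun x hx => Opens.mem_iSup.2 ⟨⟨x, hx⟩, hxU ⟨x, hx⟩⟩)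
    (fun i W _ hi => res hi (a i)) (fun i W W' h hW hi => res_res h hi _) (fun i j W hW hi hj => by
      rcases isEmpty_or_nonempty W with hW0 | hW0
      · exact sections_ext (fun e : PEmpty.{u + 1} => (e.elim : C.Opens))
          (fun x hx => (hW0.false ⟨x, hx⟩).elim) fun e => e.elim
      · apply sectionHom_injective c W
        rw [sectionHom_res, sectionHom_res, ha, ha])
  obtain ⟨x⟩ := ‹Nonempty V›
  refine ⟨s, ?_⟩
  have hne' : Nonempty (V ⊓ U x : C.Opens) := ⟨⟨x.1, x.2, hxU x⟩⟩
  have := congrArg (sectionHom c (V ⊓ U x)) (hs x _ inf_le_left inf_le_right)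
  rwa [sectionHom_res, sectionHom_res, ha] at this

/-- Functions on an affine open have the function field as fraction field. -/
theorem isFractionRing_sectionHom {U : C.Opens} [Nonempty U] (hU : IsAffineOpen U) :
    @IsFractionRing Γ(C, U) _ (FunField c) _ (sectionHom c U).toAlgebra :=
  functionField_isFractionRing_of_isAffineOpen C U hU

theorem finiteType_structureHom [LocallyOfFiniteType c] {U : C.Opens} (hU : IsAffineOpen U) :
    (structureHom c U).FiniteType :=
  RingHom.FiniteType.comp (c.finiteType_appLE (isAffineOpen_top _) hU _)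
    (RingHom.FiniteType.of_surjective _ (Scheme.ΓSpecIso (CommRingCat.of k)).symm.commRingCatIsoToRingEquiv.surjective)

variable [IsAlgClosed k] [SmoothOfRelativeDimension 1 c]

theorem exists_chart (y : C) : ∃ V : C.Opens, IsAffineOpen V ∧ y ∈ V ∧
    (structureHom c V).IsStandardSmoothOfRelativeDimension 1 := by
  obtain ⟨U, hU, V, hV, hy, e, h⟩ :=
    SmoothOfRelativeDimension.exists_isStandardSmoothOfRelativeDimension (n := 1) (f := c) y
  obtain rfl : U = ⊤ := top_unique fun z _ => by
    rw [show z = c y from Subsingleton.elim _ _]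
    exact e hy
  refine ⟨V, hV, hy, ?_⟩
  have h0 := RingHom.IsStandardSmoothOfRelativeDimension.equiv
    (Scheme.ΓSpecIso (CommRingCat.of k)).symm.commRingCatIsoToRingEquiv
  exact RingHom.IsStandardSmoothOfRelativeDimension.comp h h0

/-- Differentials of an affine open are locally generated by one element, and nonzero. -/
theorem kaehler_affine {U : C.Opens} [Nonempty U] (hU : IsAffineOpen U) :
    letI := openAlgebra c U
    LocallyCyclic Γ(C, U) Ω[Γ(C, U)⁄k] ∧ Nontrivial Ω[Γ(C, U)⁄k] := by
  letI := openAlgebra c U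
  have : SmoothOfRelativeDimension 1 c := inferInstance
  have : Smooth c := SmoothOfRelativeDimension.smooth 1 c
  have : Algebra.FiniteType k Γ(C, U) := RingHom.finiteType_algebraMap.1 (finiteType_structureHom c hU)
  have hloc : ∀ y ∈ U, ∃ f : Γ(C, U), y ∈ C.basicOpen f ∧ Nontrivial Ω[Γ(C, U)⁄k] ∧
      ∃ ω : Ω[Γ(C, U)⁄k], ∀ η, ∃ N : ℕ, f ^ N • η ∈ Submodule.span Γ(C, U) {ω} := by
    intro y hy
    obtain ⟨V, hV, hyV, hsm⟩ := exists_chart c y
    obtain ⟨f, g, hfg, hyf⟩ := exists_basicOpen_le_affine_inter hU hV y ⟨hy, hyV⟩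
    have : Nonempty (C.basicOpen f) := ⟨⟨y, hyf⟩⟩
    have hsm' : (structureHom c (C.basicOpen f)).IsStandardSmoothOfRelativeDimension 1 := by
      rw [hfg]
      have := hV.isLocalization_basicOpen g
      have h1 := RingHom.IsStandardSmoothOfRelativeDimension.algebraMap_isLocalizationAway
        (Rᵣ := Γ(C, C.basicOpen g)) g
      have h2 := RingHom.IsStandardSmoothOfRelativeDimension.comp h1 hsm
      rw [show (algebraMap Γ(C, V) Γ(C, C.basicOpen g)).comp (structureHom c V) =
        structureHom c (C.basicOpen g) from RingHom.ext (res_structureHom c (C.basicOpen_le g))] at h2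
      simpa using h2
    let B := Γ(C, C.basicOpen f)
    letI := openAlgebra c (C.basicOpen f)
    have : Algebra.IsStandardSmoothOfRelativeDimension 1 k B :=
      RingHom.IsStandardSmoothOfRelativeDimension.toAlgebra 1 hsm'
    have : Algebra.IsStandardSmooth k B :=
      Algebra.IsStandardSmoothOfRelativeDimension.isStandardSmooth 1
    have : IsScalarTower k Γ(C, U) B :=
      IsScalarTower.of_algebraMap_eq fun a => (res_structureHom c (C.basicOpen_le f) a).symm
    have := hU.isLocalization_basicOpen f
    let L := map k k Γ(C, U) B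
    have : IsLocalizedModule (Submonoid.powers f) L := inferInstance
    have hrank : Module.finrank B Ω[B⁄k] = 1 := by
      apply Module.finrank_eq_of_rank_eq
      simpa using Algebra.IsStandardSmoothOfRelativeDimension.rank_kaehlerDifferential (R := k) (S := B) 1
    obtain ⟨v, hv0, hv⟩ := finrank_eq_one_iff'.1 hrank
    refine ⟨f, hyf, ?_, ?_⟩
    · rw [← not_subsingleton_iff_nontrivial]
      intro hsub
      obtain ⟨⟨m, s⟩, hs⟩ := IsLocalizedModule.surj (Submonoid.powers f) L v
      rw [Subsingleton.elim m 0, map_zero] at hs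
      exact hv0 ((IsLocalizedModule.smul_injective L s).eq_iff' (smul_zero _) |>.1 hs)
    · obtain ⟨⟨ω, s⟩, hs⟩ := IsLocalizedModule.surj (Submonoid.powers f) L v
      refine ⟨ω, fun η => ?_⟩
      obtain ⟨b, hb⟩ := hv (L η)
      obtain ⟨j, a, hab⟩ := IsLocalization.Away.surj f b
      obtain ⟨i, hi⟩ := s.2
      have h1 : L (f ^ (i + j) • η) = L (a • ω) := by
        have hωv : f ^ i • v = L ω := by rw [← hs, Submonoid.smul_def, ← hi]
        rw [map_smul, map_smul, ← hb, ← hωv, ← IsScalarTower.algebraMap_smul B (f ^ (i + j)),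
          ← IsScalarTower.algebraMap_smul B a, ← IsScalarTower.algebraMap_smul B (f ^ i) v,
          smul_smul, smul_smul, ← hab, map_pow, map_pow, pow_add]
        congr 1
        ring
      obtain ⟨⟨_, l, rfl⟩, hl⟩ := (IsLocalizedModule.eq_iff_exists (Submonoid.powers f) L).1 h1
      refine ⟨l + (i + j), ?_⟩
      simp only [Submonoid.smul_def] at hl
      rw [pow_add, mul_smul, hl]
      exact Submodule.smul_mem _ _ (Submodule.smul_mem _ _ (Submodule.mem_span_singleton_self ω))
  refine ⟨fun m hm => ?_, ?_⟩
  · have hyU : hU.fromSpec ⟨m, hm.isPrime⟩ ∈ U := by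
      rw [← SetLike.mem_coe, ← hU.range_fromSpec]; exact ⟨_, rfl⟩
    obtain ⟨f, hyf, -, ω, hω⟩ := hloc _ hyU
    have hfm : f ∉ m := by
      have : (⟨m, hm.isPrime⟩ : PrimeSpectrum Γ(C, U)) ∈ hU.fromSpec ⁻¹ᵁ C.basicOpen f := hyf
      rwa [hU.fromSpec_preimage_basicOpen] at this
    have : Module.Finite Γ(C, U) Ω[Γ(C, U)⁄k] := inferInstance
    obtain ⟨s, hs⟩ := Module.Finite.fg_top (R := Γ(C, U)) (M := Ω[Γ(C, U)⁄k])
    choose N hN using hω
    refine ⟨f ^ s.sup N, fun h => hfm (hm.isPrime.mem_of_pow_mem _ h), ω, fun η => ?_⟩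
    have hη : η ∈ Submodule.span Γ(C, U) (s : Set Ω[Γ(C, U)⁄k]) := hs ▸ Submodule.mem_top
    induction hη using Submodule.span_induction with
    | mem e he =>
      obtain ⟨r, hr⟩ := Nat.exists_eq_add_of_le (Finset.le_sup (f := N) he)
      rw [hr, add_comm, pow_add, mul_smul]
      exact Submodule.smul_mem _ _ (hN e)
    | zero => simp
    | add x y _ _ hx hy => rw [smul_add]; exact Submodule.add_mem _ hx hy
    | smul r x _ hx => rw [smul_comm]; exact Submodule.smul_mem _ r hx
  · obtain ⟨y⟩ := ‹Nonempty U›
    exact (hloc y.1 y.2).choose_spec.2.1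

include c in
theorem isDedekindDomain_affine {U : C.Opens} [Nonempty U] (hU : IsAffineOpen U) :
    IsDedekindDomain Γ(C, U) ∧ ¬ IsField Γ(C, U) := by
  letI := openAlgebra c U
  have : Smooth c := SmoothOfRelativeDimension.smooth 1 c
  have : Algebra.FiniteType k Γ(C, U) := RingHom.finiteType_algebraMap.1 (finiteType_structureHom c hU)
  obtain ⟨hcyc, hnt⟩ := kaehler_affine c hU
  refine ⟨isDedekindDomain_of_kaehler hcyc, fun hF => ?_⟩
  letI := hF.toField
  have : Module.Finite k Γ(C, U) := finite_of_finite_type_of_isJacobsonRing k _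
  have : Algebra.IsIntegral k Γ(C, U) := Algebra.IsIntegral.of_finite k _
  have hsurj := (IsAlgClosed.algebraMap_bijective_of_isIntegral (k := k) (K := Γ(C, U))).2
  have : Subsingleton Ω[Γ(C, U)⁄k] := KaehlerDifferential.subsingleton_of_surjective k _ hsurj
  exact not_subsingleton _ this

end Fermat.Agent.Jac.Curve
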