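/-
Closed points of a smooth proper curve are the places of its function field.
-/
import Fermat.Agent.Jac.Curve.Charts
import Fermat.Agent.FF.Basic

set_option autoImplicit false
set_option linter.unusedSectionVars false

noncomputable section

open CategoryTheory AlgebraicGeometry TopologicalSpace Opposite AlgebraicCurve

namespace Fermat.Agent.Jac.Curve

universe u

variable {k : Type u} [Field k] [IsAlgClosed k] {C : Scheme.{u}}
  (c : C ⟶ Spec (CommRingCat.of k)) [IsIntegral C] [IsProper c] [SmoothOfRelativeDimension 1 c]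

include c in
theorem isMaximal_primeIdealOf_of_isClosed {U : C.Opens} (hU : IsAffineOpen U) {x : C} (hx : x ∈ U)
    (hcl : IsClosed ({x} : Set C)) : (hU.primeIdealOf ⟨x, hx⟩).asIdeal.IsMaximal := by
  rw [← PrimeSpectrum.isClosed_singleton_iff_isMaximal]
  have : hU.fromSpec ⁻¹' {x} = ({hU.primeIdealOf ⟨x, hx⟩} : Set (PrimeSpectrum Γ(C, U))) := by
    ext z
    have hz := hU.fromSpec_primeIdealOf ⟨x, hx⟩
    exact ⟨fun h => hU.fromSpec.isOpenEmbedding.injective (h.trans hz.symm),
      fun h => by rw [Set.mem_singleton_iff.1 h]; exact hz⟩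
  exact this ▸ hcl.preimage hU.fromSpec.continuous

include c in
theorem isClosed_fromSpec_of_isMaximal {U : C.Opens} (hU : IsAffineOpen U)
    (m : PrimeSpectrum Γ(C, U)) (hm : m.asIdeal.IsMaximal) :
    IsClosed ({hU.fromSpec m} : Set C) := by
  have : JacobsonSpace C := LocallyOfFiniteType.jacobsonSpace c
  have h : m ∈ closedPoints (PrimeSpectrum Γ(C, U)) :=
    (PrimeSpectrum.isClosed_singleton_iff_isMaximal m).2 hm
  exact (Set.ext_iff.1 hU.fromSpec.isOpenEmbedding.preimage_closedPoints m).2 h

include c in
theorem closed_or_generic (x : C) : IsClosed ({x} : Set C) ∨ x = genericPoint C := by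
  obtain ⟨_, ⟨U, hU, rfl⟩, hx, -⟩ :=
    C.isBasis_affineOpens.exists_subset_of_mem_open (Set.mem_univ x) isOpen_univ
  have : Nonempty U := ⟨⟨x, hx⟩⟩
  obtain ⟨hD, -⟩ := isDedekindDomain_affine c hU
  by_cases h : (hU.primeIdealOf ⟨x, hx⟩).asIdeal = ⊥
  · right
    have hg : genericPoint C ∈ U := ((genericPoint_spec C).mem_open_set_iff U.isOpen).2
      ⟨x, trivial, hx⟩
    refine (hU.fromSpec_primeIdealOf ⟨x, hx⟩).symm.trans (Eq.trans ?_ (hU.fromSpec_primeIdealOf ⟨_, hg⟩))
    congr 1
    rw [hU.primeIdealOf_genericPoint, genericPoint_eq_bot_of_affine]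
    exact PrimeSpectrum.ext h
  · left
    have := isClosed_fromSpec_of_isMaximal c hU (hU.primeIdealOf ⟨x, hx⟩)
      (Ring.DimensionLEOne.maximalOfPrime h inferInstance)
    rwa [hU.fromSpec_primeIdealOf] at this

include c in
theorem isDiscreteValuationRing_stalk {x : C} (hcl : IsClosed ({x} : Set C)) :
    IsDiscreteValuationRing (C.presheaf.stalk x) := by
  obtain ⟨_, ⟨U, hU, rfl⟩, hx, -⟩ :=
    C.isBasis_affineOpens.exists_subset_of_mem_open (Set.mem_univ x) isOpen_univ
  have : Nonempty U := ⟨⟨x, hx⟩⟩
  obtain ⟨hD, hnf⟩ := isDedekindDomain_affine c hU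
  have hmax := isMaximal_primeIdealOf_of_isClosed c hU hx hcl
  letI := C.presheaf.algebra_section_stalk (⟨x, hx⟩ : U)
  have := hU.isLocalization_stalk ⟨x, hx⟩
  exact IsLocalization.AtPrime.isDiscreteValuationRing_of_dedekind_domain Γ(C, U)
    (Ring.ne_bot_of_isMaximal_of_not_isField hmax hnf) (C.presheaf.stalk x)

theorem regularAt_ne_top {x : C} (hcl : IsClosed ({x} : Set C)) : regularAt c x ≠ ⊤ := by
  have := isDiscreteValuationRing_stalk c hcl
  intro h
  obtain ⟨π, hπ⟩ := IsDiscreteValuationRing.exists_irreducible (C.presheaf.stalk x)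
  obtain ⟨s, hs⟩ : (stalkHom c x π)⁻¹ ∈ regularAt c x := h ▸ Subring.mem_top _
  apply hπ.not_isUnit
  refine IsUnit.of_mul_eq_one s (stalkHom_injective c x ?_)
  rw [map_mul, map_one, hs, mul_inv_cancel₀]
  exact fun h0 => hπ.ne_zero (stalkHom_injective c x (by rw [h0, map_zero]))

theorem genericPoint_regular (f : FunField c) : f ∈ regularAt c (genericPoint C) := by
  refine ⟨f, ?_⟩
  change C.presheaf.stalkSpecializes _ f = f
  simp

/-- The place of a closed point. -/
def placeAt (x : C) (hcl : IsClosed ({x} : Set C)) : Place k (FunField c) where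
  toValuationSubring :=
    { regularAt c x with
      mem_or_inv_mem' := fun f => by
        have := isDiscreteValuationRing_stalk c hcl
        letI : Algebra (C.presheaf.stalk x) (FunField c) := (stalkHom c x).toAlgebra
        have : IsFractionRing (C.presheaf.stalk x) (FunField c) :=
          inferInstanceAs (IsFractionRing (C.presheaf.stalk x) C.functionField)
        rcases ValuationRing.isInteger_or_isInteger (C.presheaf.stalk x) f with h | h
        · exact Or.inl h
        · exact Or.inr h }
  algebraMap_mem' a := sectionHom_mem c (⊤ : C.Opens) (x := x) trivial (structureHom c ⊤ a)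
  ne_top' := fun h => regularAt_ne_top c hcl (SetLike.ext fun f => by
    simp only [Subring.mem_top, iff_true]
    exact h.ge (ValuationSubring.mem_top f))
  isPrincipalIdealRing' :=
    have := isDiscreteValuationRing_stalk c hcl
    IsPrincipalIdealRing.of_surjective (stalkHom c x).rangeRestrict
      (stalkHom c x).rangeRestrict_surjective

theorem mem_placeAt {x : C} {hcl : IsClosed ({x} : Set C)} {f : FunField c} :
    f ∈ (placeAt c x hcl).toValuationSubring ↔ f ∈ regularAt c x := by rfl

theorem fromSpecStalk_genericPoint_comp :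
    C.fromSpecStalk (genericPoint C) ≫ c =
      Spec.map (CommRingCat.ofHom (algebraMap k (FunField c))) := by
  rw [← cancel_mono (Spec (CommRingCat.of k)).toSpecΓ, Category.assoc, Scheme.toSpecΓ_naturality,
    Scheme.fromSpecStalk_toSpecΓ_assoc, ← SpecMap_ΓSpecIso_hom, ← Spec.map_comp]
  refine (congrArg Spec.map ?_).trans (Spec.map_comp (Scheme.ΓSpecIso (CommRingCat.of k)).hom
    (CommRingCat.ofHom (algebraMap k (FunField c))))
  refine ((Iso.inv_comp_eq _).1 ?_)
  rw [Scheme.Hom.appTop, Scheme.Hom.app_eq_appLE]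
  rfl

/-- The valuative square attached to a place. -/
def placeSquare (w : Place k (FunField c)) : ValuativeCommSq c where
  R := w.toValuationSubring
  K := FunField c
  i₁ := C.fromSpecStalk (genericPoint C)
  i₂ := Spec.map (CommRingCat.ofHom (algebraMap k w.toValuationSubring))
  commSq := ⟨by
    refine (fromSpecStalk_genericPoint_comp c).trans ?_
    rw [← Spec.map_comp]
    congr 1⟩

/-- The stalk at the centre of a place lands in the place. -/
theorem exists_centre (w : Place k (FunField c)) :
    ∃ x : C, regularAt c x ≤ w.toValuationSubring.toSubring := by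
  have huc : UniversallyClosed c := inferInstance
  rw [UniversallyClosed.eq_valuativeCriterion] at huc
  obtain ⟨⟨l⟩⟩ := huc.1 (placeSquare c w)
  obtain ⟨l, hl1, -⟩ := l
  change Spec (CommRingCat.of w.toValuationSubring) ⟶ C at l
  change Spec.map (CommRingCat.ofHom (algebraMap w.toValuationSubring (FunField c))) ≫ l =
    C.fromSpecStalk (genericPoint C) at hl1
  let x := l (IsLocalRing.closedPoint w.toValuationSubring)
  refine ⟨x, ?_⟩
  have hs : genericPoint C ⤳ x := (genericPoint_spec C).specializes trivial
  rw [← Scheme.Spec_stalkClosedPointTo_fromSpecStalk l,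
    ← Scheme.SpecMap_stalkSpecializes_fromSpecStalk hs, ← Category.assoc, ← Spec.map_comp] at hl1
  replace hl1 := (cancel_mono (C.fromSpecStalk x)).1 hl1
  have h2 := Spec.map_injective hl1
  rintro f ⟨s, rfl⟩
  have h3 := ConcreteCategory.congr_hom h2 s
  change algebraMap w.toValuationSubring (FunField c) (Scheme.stalkClosedPointTo l s) =
    stalkHom c x s at h3
  rw [← h3]
  exact (Scheme.stalkClosedPointTo l s).2

theorem exists_placeAt_eq (w : Place k (FunField c)) :
    ∃ (x : C) (hcl : IsClosed ({x} : Set C)), placeAt c x hcl = w := by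
  obtain ⟨x, hx⟩ := exists_centre c w
  have hcl : IsClosed ({x} : Set C) := by
    rcases closed_or_generic c x with h | h
    · exact h
    · exfalso
      subst h
      exact w.ne_top' (SetLike.ext fun f => by
        simp only [ValuationSubring.mem_top, iff_true]
        exact hx (genericPoint_regular c f))
  refine ⟨x, hcl, Place.ext (le_antisymm (fun f hf => hx ((mem_placeAt c).1 hf)) ?_)⟩
  have := isDiscreteValuationRing_stalk c hcl
  intro f hf
  by_contra hnf
  obtain ⟨π, hπ⟩ := IsDiscreteValuationRing.exists_irreducible (C.presheaf.stalk x)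
  letI : Algebra (C.presheaf.stalk x) (FunField c) := (stalkHom c x).toAlgebra
  have : IsFractionRing (C.presheaf.stalk x) (FunField c) :=
    inferInstanceAs (IsFractionRing (C.presheaf.stalk x) C.functionField)
  have hf0 : f ≠ 0 := fun h => hnf (h ▸ Subring.zero_mem _)
  obtain ⟨n, u, hu⟩ :=
    IsDiscreteValuationRing.exists_units_eq_smul_zpow_of_irreducible (K := FunField c) hπ hf0
  have hπ0 : stalkHom c x π ≠ 0 := fun h =>
    hπ.ne_zero (stalkHom_injective c x (by rw [h, map_zero]))
  rcases le_or_gt 0 n with hn | hn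
  · obtain ⟨m, rfl⟩ := Int.eq_ofNat_of_zero_le hn
    exact hnf ((mem_placeAt c).2 ⟨u * π ^ m, by rw [hu, Units.smul_def, Algebra.smul_def, map_mul, map_pow, zpow_natCast]; rfl⟩)
  -- then `π⁻¹` is in the place, so every rational function is
  refine w.ne_top' (SetLike.ext fun g => ?_)
  simp only [ValuationSubring.mem_top, iff_true]
  have hinv : (stalkHom c x π)⁻¹ ∈ w.toValuationSubring := by
    obtain ⟨m, rfl⟩ : ∃ m : ℕ, n = -(m + 1 : ℤ) := ⟨(-n - 1).toNat, by omega⟩
    have h1 : (stalkHom c x π)⁻¹ = f * stalkHom c x ((u⁻¹ : (C.presheaf.stalk x)ˣ) * π ^ m) := by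
      rw [hu, Units.smul_def, Algebra.smul_def, map_mul, map_pow, zpow_neg,
        show ((m : ℤ) + 1) = ((m + 1 : ℕ) : ℤ) by simp, zpow_natCast, pow_succ]
      change _ = stalkHom c x u * (stalkHom c x π ^ m * stalkHom c x π)⁻¹ *
        (stalkHom c x ↑u⁻¹ * stalkHom c x π ^ m)
      have huv : stalkHom c x u * stalkHom c x ↑u⁻¹ = 1 := by
        rw [← map_mul, Units.mul_inv, map_one]
      field_simp
      linear_combination (norm := ring_nf) (-1 : FunField c) * huv
    rw [h1]
    exact mul_mem hf (hx ⟨_, rfl⟩)
  rcases eq_or_ne g 0 with rfl | hg0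
  · exact zero_mem _
  obtain ⟨j, v, hv⟩ :=
    IsDiscreteValuationRing.exists_units_eq_smul_zpow_of_irreducible (K := FunField c) hπ hg0
  rw [hv, Units.smul_def, Algebra.smul_def]
  refine mul_mem (hx ⟨_, rfl⟩) ?_
  rcases le_or_gt 0 j with hj | hj
  · obtain ⟨m, rfl⟩ := Int.eq_ofNat_of_zero_le hj
    rw [zpow_natCast]
    exact pow_mem (hx ⟨_, rfl⟩) m
  · obtain ⟨m, rfl⟩ : ∃ m : ℕ, j = -(m : ℤ) := ⟨(-j).toNat, by omega⟩
    rw [zpow_neg, zpow_natCast, ← inv_pow]
    exact pow_mem hinv m

theorem eq_of_regularAt_eq {x y : C} (hcl : IsClosed ({x} : Set C))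
    (h : regularAt c x = regularAt c y) : x = y := by
  let w := placeAt c x hcl
  have lift : ∀ (z : C), regularAt c z = regularAt c x →
      ∃ L : (placeSquare c w).commSq.LiftStruct,
        L.l (IsLocalRing.closedPoint (placeSquare c w).R) = z := by
    intro z hz
    have hmem : ∀ s, stalkHom c z s ∈ w.toValuationSubring := fun s => by
      rw [mem_placeAt, ← hz]; exact ⟨s, rfl⟩
    let φ : C.presheaf.stalk z →+* w.toValuationSubring :=
      (stalkHom c z).codRestrict w.toValuationSubring.toSubring hmem
    have : IsLocalHom (CommRingCat.ofHom φ).hom := ⟨fun s hs => by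
      obtain ⟨b, hb⟩ := hs.exists_right_inv
      obtain ⟨r, hr⟩ : (b : FunField c) ∈ regularAt c z := by rw [hz]; exact (mem_placeAt c).1 b.2
      refine IsUnit.of_mul_eq_one r (stalkHom_injective c z ?_)
      have := congrArg Subtype.val hb
      rw [map_mul, map_one, hr]
      exact this⟩
    have hs : genericPoint C ⤳ z := (genericPoint_spec C).specializes trivial
    have h1 : Spec.map (CommRingCat.ofHom (algebraMap w.toValuationSubring (FunField c))) ≫
        Spec.map (CommRingCat.ofHom φ) ≫ C.fromSpecStalk z = C.fromSpecStalk (genericPoint C) := by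
      rw [← Category.assoc, ← Spec.map_comp, ← Scheme.SpecMap_stalkSpecializes_fromSpecStalk hs]
      congr 2
    refine ⟨⟨Spec.map (CommRingCat.ofHom φ) ≫ C.fromSpecStalk z, h1, ?_⟩, ?_⟩
    · change (Spec.map (CommRingCat.ofHom φ) ≫ C.fromSpecStalk z) ≫ c =
        Spec.map (CommRingCat.ofHom (algebraMap k w.toValuationSubring))
      have h2 := congrArg (· ≫ c) h1
      simp only [Category.assoc] at h2
      replace h2 := h2.trans (fromSpecStalk_genericPoint_comp c)
      obtain ⟨ψ, hψ⟩ := Spec.map_surjective (C.fromSpecStalk z ≫ c)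
      rw [← hψ, ← Spec.map_comp, ← Spec.map_comp] at h2
      rw [Category.assoc, ← hψ, ← Spec.map_comp]
      congr 1
      have h3 := Spec.map_injective h2
      ext a
      have h4 : ((φ (ψ.hom a) : w.toValuationSubring) : FunField c) =
          ((algebraMap k w.toValuationSubring a : w.toValuationSubring) : FunField c) :=
        ConcreteCategory.congr_hom h3 a
      exact h4
    · change (Spec.map (CommRingCat.ofHom φ) ≫ C.fromSpecStalk z) (IsLocalRing.closedPoint _) = z
      rw [Scheme.Hom.comp_apply, Spec_closedPoint, Scheme.fromSpecStalk_closedPoint]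
  have hsub := IsSeparated.valuativeCriterion c (placeSquare c w)
  obtain ⟨L, hL⟩ := lift x rfl
  obtain ⟨L', hL'⟩ := lift y h.symm
  rw [← hL, ← hL', Subsingleton.elim L L']

/-- The function field of a smooth proper curve is a function field in one variable. -/
instance isFunctionField : FF.IsFunctionField k (FunField c) := by
  obtain ⟨_, ⟨U, hU, rfl⟩, hx, -⟩ :=
    C.isBasis_affineOpens.exists_subset_of_mem_open (Set.mem_univ (genericPoint C)) isOpen_univ
  have : Nonempty U := ⟨⟨_, hx⟩⟩
  letI := openAlgebra c U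
  letI : Algebra Γ(C, U) (FunField c) := (sectionHom c U).toAlgebra
  have : IsFractionRing Γ(C, U) (FunField c) := isFractionRing_sectionHom c hU
  have : IsScalarTower k Γ(C, U) (FunField c) :=
    IsScalarTower.of_algebraMap_eq fun a => (sectionHom_structureHom c U a).symm
  have : Algebra.FiniteType k Γ(C, U) :=
    RingHom.finiteType_algebraMap.1 (finiteType_structureHom c hU)
  have : Algebra.EssFiniteType Γ(C, U) (FunField c) :=
    Algebra.EssFiniteType.of_isLocalization _ (nonZeroDivisors Γ(C, U))
  have : Algebra.EssFiniteType k (FunField c) := Algebra.EssFiniteType.comp k Γ(C, U) _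
  obtain ⟨hD, hnf⟩ := isDedekindDomain_affine c hU
  obtain ⟨s, g, hinj, hint⟩ := exists_integral_inj_algHom_of_fg k Γ(C, U)
  -- exactly one variable
  letI : Algebra (MvPolynomial (Fin s) k) Γ(C, U) := g.toRingHom.toAlgebra
  have : Algebra.IsIntegral (MvPolynomial (Fin s) k) Γ(C, U) := ⟨hint⟩
  have hs : s ≤ 1 := by
    by_contra hs
    let ev : MvPolynomial (Fin s) k →ₐ[k] Polynomial k :=
      MvPolynomial.aeval fun i => if (i : ℕ) = 0 then 0 else Polynomial.X
    have hev : Function.Surjective ev := by
      intro p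
      refine ⟨Polynomial.aeval (MvPolynomial.X (⟨1, by omega⟩ : Fin s)) p, ?_⟩
      rw [← Polynomial.aeval_algHom_apply]
      simp [ev, Polynomial.aeval_X_left_apply]
    have hq : (RingHom.ker ev).IsPrime := RingHom.ker_isPrime ev
    obtain ⟨Q, hQ, hQ'⟩ := Ideal.exists_ideal_over_prime_of_isIntegral_of_isDomain
      (S := Γ(C, U)) (RingHom.ker ev) (by
        intro z hz
        rw [hinj ((RingHom.mem_ker.1 hz).trans (map_zero g).symm)]
        exact zero_mem _)
    have hX : MvPolynomial.X (⟨0, by omega⟩ : Fin s) ∈ RingHom.ker ev := by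
      simp [ev, RingHom.mem_ker]
    have hQ0 : Q ≠ ⊥ := by
      rintro rfl
      have h0 : g (MvPolynomial.X (⟨0, by omega⟩ : Fin s)) = 0 := by
        rw [← hQ'] at hX
        exact hX
      exact MvPolynomial.X_ne_zero _ (hinj (h0.trans (map_zero g).symm))
    have := Ring.DimensionLEOne.maximalOfPrime hQ0 hQ
    have hmax : (RingHom.ker ev).IsMaximal := hQ' ▸ Ideal.isMaximal_comap_of_isIntegral_of_isMaximal Q
    exact Polynomial.not_isField k (((Ideal.quotientKerAlgEquivOfSurjective hev).toRingEquiv
      ).toMulEquiv.symm.isField ((Ideal.Quotient.maximal_ideal_iff_isField_quotient _).1 hmax))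
  have hs1 : s = 1 := by
    by_contra hne
    obtain rfl : s = 0 := by omega
    exact hnf (isField_of_isIntegral_of_isField'
      ((MvPolynomial.isEmptyAlgEquiv k (Fin 0)).toRingEquiv.toMulEquiv.isField (Field.toIsField k)))
  subst hs1
  set x : FunField c := algebraMap Γ(C, U) (FunField c) (g (MvPolynomial.X 0))
  have hrange : ∀ p, algebraMap Γ(C, U) (FunField c) (g p) =
      Polynomial.aeval x (MvPolynomial.uniqueAlgEquiv k (Fin 1) p) := by
    intro p
    refine congrArg (fun F : MvPolynomial (Fin 1) k →ₐ[k] FunField c => F p)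
      (MvPolynomial.algHom_ext (f := (IsScalarTower.toAlgHom k Γ(C, U) (FunField c)).comp g)
        (g := (Polynomial.aeval x).comp (MvPolynomial.uniqueAlgEquiv k (Fin 1)).toAlgHom) fun i => ?_)
    obtain rfl : i = 0 := Subsingleton.elim _ _
    simp [x]
  have hx : Transcendental k x := by
    rw [transcendental_iff]
    intro p hp
    obtain ⟨q, rfl⟩ := (MvPolynomial.uniqueAlgEquiv k (Fin 1)).surjective p
    rw [← hrange] at hp
    rw [hinj ((IsFractionRing.injective Γ(C, U) (FunField c) (hp.trans (map_zero _).symm)).trans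
      (map_zero g).symm), map_zero]
  have : Algebra.IsAlgebraic (IntermediateField.adjoin k {x}) (FunField c) := by
    have halg : ∀ a : Γ(C, U), IsAlgebraic (IntermediateField.adjoin k {x})
        (algebraMap Γ(C, U) (FunField c) a) := by
      intro a
      obtain ⟨P, hP, hP0⟩ := hint a
      refine IsIntegral.isAlgebraic ⟨P.map (((Polynomial.aeval
        (⟨x, IntermediateField.mem_adjoin_simple_self k x⟩ :
          IntermediateField.adjoin k ({x} : Set (FunField c)))).comp
        (MvPolynomial.uniqueAlgEquiv k (Fin 1)).toAlgHom).toRingHom), hP.map _, ?_⟩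
      rw [Polynomial.eval₂_map]
      have h2 := congrArg (algebraMap Γ(C, U) (FunField c)) hP0
      rw [map_zero, Polynomial.hom_eval₂] at h2
      convert! h2 using 2
      refine RingHom.ext fun p => ?_
      rw [RingHom.comp_apply, RingHom.comp_apply]
      change _ = algebraMap Γ(C, U) (FunField c) (g p)
      rw [hrange]
      exact (Polynomial.aeval_algHom_apply (IntermediateField.val _) _ _).symm
    refine ⟨fun f => ?_⟩
    obtain ⟨a, b, -, rfl⟩ := IsFractionRing.div_surjective (A := Γ(C, U)) f
    rw [div_eq_mul_inv]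
    exact (halg a).mul (halg b).inv
  exact FF.IsFunctionField.of_isAlgebraic hx

end Fermat.Agent.Jac.Curve
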