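/-
The complement of a closed point of a smooth proper curve is affine.
-/
import Fermat.Agent.Jac.Curve.Points
import Fermat.Agent.FF.RiemannRoch
import Fermat.Agent.FF.Approximation

set_option autoImplicit false
set_option linter.unusedSectionVars false

noncomputable section

open CategoryTheory AlgebraicGeometry TopologicalSpace Opposite AlgebraicCurve WithZero

namespace Fermat.Agent.Jac.Curve

universe u

variable {k : Type u} [Field k] [IsAlgClosed k] {C : Scheme.{u}}
  (c : C ⟶ Spec (CommRingCat.of k)) [IsIntegral C] [IsProper c] [SmoothOfRelativeDimension 1 c]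

theorem sectionHom_mem_ordGE_zero (U : C.Opens) [Nonempty U] {x : C} (hcl : IsClosed ({x} : Set C))
    (hx : x ∈ U) (a : Γ(C, U)) : sectionHom c U a ∈ FF.ordGE (placeAt c x hcl) 0 :=
  (FF.mem_ordGE_zero _).2 ((mem_placeAt c).2 (sectionHom_mem c U hx a))

theorem mem_basicOpen_iff (U : C.Opens) [Nonempty U] {x : C} (hcl : IsClosed ({x} : Set C))
    (hx : x ∈ U) (a : Γ(C, U)) :
    x ∈ C.basicOpen a ↔ sectionHom c U a ∉ FF.ordGE (placeAt c x hcl) 1 := by
  set v := placeAt c x hcl
  rw [C.mem_basicOpen a x hx]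
  constructor
  · intro hu hmem
    obtain ⟨b, hb⟩ := hu.exists_right_inv
    have hb' : stalkHom c x b ∈ FF.ordGE v 0 :=
      (FF.mem_ordGE_zero _).2 ((mem_placeAt c).2 ⟨b, rfl⟩)
    have h1 := FF.mul_mem_ordGE v hmem hb'
    have hab := congrArg (stalkHom c x) hb
    rw [map_mul, map_one] at hab
    erw [stalkHom_germ c U x hx a] at hab
    rw [hab, FF.mem_ordGE] at h1
    rcases h1 with h | h
    · exact one_ne_zero h
    · rw [v.ord_one] at h
      omega
  · intro hn
    have hmem := sectionHom_mem_ordGE_zero c U hcl hx a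
    rw [FF.mem_ordGE] at hn hmem
    simp only [not_or, not_le] at hn
    have h0 : 0 ≤ v.ord (sectionHom c U a) := hmem.resolve_left hn.1
    obtain ⟨b, hb⟩ : (sectionHom c U a)⁻¹ ∈ regularAt c x := by
      rw [← mem_placeAt c (hcl := hcl), FF.mem_iff_ord_nonneg, v.ord_inv]
      omega
    refine IsUnit.of_mul_eq_one b (stalkHom_injective c x ?_)
    rw [map_mul, map_one, hb]
    erw [stalkHom_germ c U x hx a]
    exact mul_inv_cancel₀ hn.1

include c in
/-- A nonempty open misses only finitely many points. -/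
theorem finite_compl_of_nonempty (W : C.Opens) [Nonempty W] : ((W : Set C)ᶜ).Finite := by
  have : CompactSpace C := (quasiCompact_iff_compactSpace c).mp inferInstance
  obtain ⟨S, hS⟩ := isCompact_univ.elim_finite_subcover (fun U : C.affineOpens => (U.1 : Set C))
    (fun U => U.1.isOpen) (fun x _ => by
      obtain ⟨_, ⟨U, hU, rfl⟩, hx, -⟩ :=
        C.isBasis_affineOpens.exists_subset_of_mem_open (Set.mem_univ x) isOpen_univ
      exact Set.mem_iUnion.2 ⟨⟨U, hU⟩, hx⟩)
  suffices h : ∀ U : C.affineOpens, ((U.1 : Set C) ∩ (W : Set C)ᶜ).Finite by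
    refine ((S : Set C.affineOpens).toFinite.biUnion fun U _ => h U).subset fun x hx => ?_
    obtain ⟨U, hU, hxU⟩ := Set.mem_iUnion₂.1 (hS (Set.mem_univ x))
    exact Set.mem_iUnion₂.2 ⟨U, hU, hxU, hx⟩
  rintro ⟨U, hU⟩
  rcases isEmpty_or_nonempty U with hE | hE
  · exact Set.Finite.subset Set.finite_empty fun x hx => (hE.false ⟨x, hx.1⟩).elim
  obtain ⟨hD, -⟩ := isDedekindDomain_affine c hU
  obtain ⟨I, hI⟩ := (PrimeSpectrum.isClosed_iff_zeroLocus_ideal _).1
    (((W.isOpen.isClosed_compl).preimage hU.fromSpec.continuous) :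
      IsClosed (hU.fromSpec ⁻¹' (W : Set C)ᶜ : Set (PrimeSpectrum Γ(C, U))))
  have hg : genericPoint C ∈ W :=
    ((genericPoint_spec C).mem_open_set_iff W.isOpen).2 (by simpa using ‹Nonempty W›)
  have hgU : genericPoint C ∈ U :=
    ((genericPoint_spec C).mem_open_set_iff U.isOpen).2 (by simpa using hE)
  have hI0 : I ≠ ⊥ := by
    rintro rfl
    have : hU.primeIdealOf ⟨_, hgU⟩ ∈ hU.fromSpec ⁻¹' (W : Set C)ᶜ := by
      rw [hI]; exact fun y hy => by rw [SetLike.mem_coe, Submodule.mem_bot] at hy; simp [hy]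
    exact this (by rw [hU.fromSpec_primeIdealOf]; exact hg)
  have hfin : (PrimeSpectrum.zeroLocus (I : Set Γ(C, U))).Finite := by
    refine Set.Finite.of_finite_image (f := PrimeSpectrum.asIdeal) ?_ fun a _ b _ h => PrimeSpectrum.ext h
    refine (Ideal.finite_minimalPrimes_of_isNoetherianRing _ I).subset ?_
    rintro _ ⟨p, hp, rfl⟩
    refine ⟨⟨p.isPrime, hp⟩, fun q ⟨hq, hIq⟩ hqp => ?_⟩
    have hq0 : q ≠ ⊥ := fun h => hI0 (le_bot_iff.1 (h ▸ hIq))
    exact ((Ring.DimensionLEOne.maximalOfPrime hq0 hq).eq_of_le p.isPrime.ne_top hqp).ge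
  refine ((hfin.image hU.fromSpec)).subset fun x hx => ?_
  refine ⟨hU.primeIdealOf ⟨x, hx.1⟩, ?_, hU.fromSpec_primeIdealOf ⟨x, hx.1⟩⟩
  rw [← hI]
  change hU.fromSpec (hU.primeIdealOf ⟨x, hx.1⟩) ∈ ((W : Set C)ᶜ)
  rw [hU.fromSpec_primeIdealOf]
  exact hx.2

theorem exists_ord_eq (v : Place k (FunField c)) :
    ∃ n₀ : ℕ, ∀ n : ℕ, n₀ ≤ n → ∃ f : FunField c, f ≠ 0 ∧ v.ord f = -(n : ℤ) ∧
      ∀ w : Place k (FunField c), w ≠ v → 0 ≤ w.ord f := by
  classical
  refine ⟨2 * AlgebraicCurve.genusFF k (FunField c) + 1, fun n hn => ?_⟩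
  set g := AlgebraicCurve.genusFF k (FunField c)
  have hdeg : ∀ m : ℤ, Divisor.degree (Finsupp.single v m : Divisor k (FunField c)) = m := by
    intro m
    have h1 : v.deg = 1 := by
      have : FiniteDimensional k v.ResidueField := inferInstance
      exact v.deg_eq_one_of_isAlgClosed_of_finite
    rw [Divisor.degree_single, h1]
    simp
  have h1 := FF.finrank_riemannRochSpace_of_lt_degree
    (D := (Finsupp.single v (n : ℤ) : Divisor k (FunField c))) (by rw [hdeg]; omega)
  have h2 := FF.finrank_riemannRochSpace_of_lt_degree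
    (D := (Finsupp.single v ((n : ℤ) - 1) : Divisor k (FunField c))) (by rw [hdeg]; omega)
  rw [hdeg] at h1 h2
  obtain ⟨f, hf, hf'⟩ : ∃ f, f ∈ riemannRochSpace (Finsupp.single v (n : ℤ) : Divisor k (FunField c)) ∧
      f ∉ riemannRochSpace (Finsupp.single v ((n : ℤ) - 1) : Divisor k (FunField c)) := by
    by_contra hcon
    simp only [not_exists, not_and, not_not] at hcon
    have := FF.finite_riemannRochSpace (Finsupp.single v ((n : ℤ) - 1) : Divisor k (FunField c))
    have := Submodule.finrank_mono (fun f hf => hcon f hf :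
      riemannRochSpace (Finsupp.single v (n : ℤ) : Divisor k (FunField c)) ≤ _)
    omega
  change ∀ w : Place k (FunField c), w.adicValuation f ≤ exp _ at hf
  have hf0 : f ≠ 0 := fun h => hf' (h ▸ Submodule.zero_mem _)
  have hw : ∀ w : Place k (FunField c), w ≠ v → 0 ≤ w.ord f := by
    intro w hwv
    have := hf w
    rw [Finsupp.single_eq_of_ne hwv, w.adicValuation_eq_exp_neg_ord hf0, exp_le_exp] at this
    omega
  refine ⟨f, hf0, ?_, hw⟩
  have h3 := hf v
  rw [Finsupp.single_eq_same, v.adicValuation_eq_exp_neg_ord hf0, exp_le_exp] at h3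
  by_contra hne
  refine hf' fun w => ?_
  rw [w.adicValuation_eq_exp_neg_ord hf0, exp_le_exp]
  rcases eq_or_ne w v with rfl | hwv
  · rw [Finsupp.single_eq_same]
    omega
  · rw [Finsupp.single_eq_of_ne hwv]
    have := hw w hwv
    omega

/-- Functions with poles only at a given closed point. -/
theorem exists_sectionHom_eq_of_ord_nonneg (C0 : C.Opens) [Nonempty C0] {f : FunField c}
    (hf : ∀ x ∈ C0, ∀ hcl : IsClosed ({x} : Set C), f ∈ FF.ordGE (placeAt c x hcl) 0) :
    ∃ a : Γ(C, C0), sectionHom c C0 a = f := by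
  refine exists_sectionHom_eq c C0 fun x hx => ?_
  rcases closed_or_generic c x with h | rfl
  · exact (mem_placeAt c).1 ((FF.mem_ordGE_zero _).1 (hf x hx h))
  · exact genericPoint_regular c f

include c in
/-- The complement of a closed point is affine. -/
theorem isAffineOpen_compl {x₀ : C} (h₀ : IsClosed ({x₀} : Set C)) (C0 : C.Opens)
    (hC0 : (C0 : Set C) = ({x₀} : Set C)ᶜ) [Nonempty C0] : IsAffineOpen C0 := by
  classical
  set v₀ := placeAt c x₀ h₀
  have hmem : ∀ {x : C}, x ∈ C0 ↔ x ≠ x₀ := fun {x} => by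
    rw [← SetLike.mem_coe, hC0]; simp
  have hne : ∀ {x : C} (hcl : IsClosed ({x} : Set C)), x ∈ C0 → placeAt c x hcl ≠ v₀ := by
    intro x hcl hx h
    refine hmem.1 hx (eq_of_regularAt_eq c hcl (SetLike.ext fun f => ?_))
    rw [← mem_placeAt c (hcl := hcl), h, mem_placeAt]
  -- local affine basic opens with prescribed point
  have hloc : ∀ (x : C) (hcl : IsClosed ({x} : Set C)), x ∈ C0 →
      ∃ a : Γ(C, C0), IsAffineOpen (C.basicOpen a) ∧ x ∈ C.basicOpen a := by
    intro x hcl hx
    obtain ⟨_, ⟨W, hW, rfl⟩, hxW, hWC⟩ :=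
      C.isBasis_affineOpens.exists_subset_of_mem_open (show x ∈ (C0 : Set C) from hx) C0.isOpen
    have : Nonempty W := ⟨⟨x, hxW⟩⟩
    have hfin := finite_compl_of_nonempty c W
    let S : Finset C := hfin.toFinset.erase x₀
    have hSc : ∀ y ∈ S, IsClosed ({y} : Set C) := by
      intro y hy
      rcases closed_or_generic c y with h | rfl
      · exact h
      · exfalso
        have h1 : genericPoint C ∈ ((W : Set C)ᶜ) := hfin.mem_toFinset.1 (Finset.mem_erase.1 hy).2
        exact h1 (((genericPoint_spec C).mem_open_set_iff W.isOpen).2 (by simpa using ‹Nonempty W›))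
    let T : Finset (Place k (FunField c)) :=
      insert (placeAt c x hcl) (S.attach.image fun y => placeAt c y.1 (hSc y.1 y.2))
    have hT : v₀ ∉ T := by
      simp only [T, Finset.mem_insert, Finset.mem_image, Finset.mem_attach, true_and, not_or,
        not_exists]
      refine ⟨(hne hcl hx).symm, fun y h => hne (hSc y.1 y.2) ?_ h⟩
      exact hmem.2 (Finset.mem_erase.1 y.2).1
    obtain ⟨g, hg, hg'⟩ := FF.exists_strongApproximation v₀ T hT
      (fun v => if v = placeAt c x hcl then 1 else 0) (fun _ => 1)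
    have hgreg : ∀ y ∈ C0, ∀ hy : IsClosed ({y} : Set C), g ∈ FF.ordGE (placeAt c y hy) 0 := by
      intro y hy hycl
      by_cases hyT : placeAt c y hycl ∈ T
      · have h1 := FF.ordGE_antitone _ zero_le_one (hg _ hyT)
        have h2 : (if placeAt c y hycl = placeAt c x hcl then (1 : FunField c) else 0) ∈
            FF.ordGE (placeAt c y hycl) 0 := by
          split
          · exact (FF.mem_ordGE_zero _).2 (one_mem _)
          · exact zero_mem _
        simpa using add_mem h1 h2
      · exact hg' _ hyT (hne hycl hy)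
    obtain ⟨a, ha⟩ := exists_sectionHom_eq_of_ord_nonneg c C0 hgreg
    refine ⟨a, ?_, ?_⟩
    · have hle : C.basicOpen a ≤ W := by
        intro y hy
        by_contra hyW
        have hyC : y ∈ C0 := C.basicOpen_le a hy
        have hyS : y ∈ S := Finset.mem_erase.2 ⟨hmem.1 hyC, hfin.mem_toFinset.2 hyW⟩
        refine (mem_basicOpen_iff c C0 (hSc y hyS) hyC a).1 hy ?_
        have hT' : placeAt c y (hSc y hyS) ∈ T :=
          Finset.mem_insert_of_mem (Finset.mem_image.2 ⟨⟨y, hyS⟩, Finset.mem_attach _ _, rfl⟩)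
        have hne' : placeAt c y (hSc y hyS) ≠ placeAt c x hcl := fun h => hyW (by
          rw [eq_of_regularAt_eq c (x := y) (y := x) (hSc y hyS) (SetLike.ext fun f => by
            rw [← mem_placeAt c (hcl := hSc y hyS), h, mem_placeAt])]
          exact hxW)
        simpa [ha, hne'] using hg _ hT'
      have := hW.basicOpen (res hWC a)
      have heq : C.basicOpen (res hWC a) = C.basicOpen a := by
        change C.basicOpen ((C.presheaf.map (homOfLE hWC).op).hom a) = _
        rw [C.basicOpen_res]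
        exact inf_eq_right.2 hle
      rwa [heq] at this
    · refine (mem_basicOpen_iff c C0 hcl hx a).2 fun h => ?_
      have h1 := hg _ (Finset.mem_insert_self _ _)
      simp only [if_true] at h1
      rw [ha] at h
      have h2 := sub_mem h h1
      rw [sub_sub_cancel, FF.mem_ordGE, Place.ord_one] at h2
      rcases h2 with h2 | h2
      · exact one_ne_zero h2
      · omega
  -- these functions generate the unit ideal
  refine isAffineOpen_of_isAffineOpen_basicOpen C0 {a | IsAffineOpen (C.basicOpen a)} ?_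
    (fun a ha => ha)
  by_contra htop
  let A : Subring (FunField c) := (sectionHom c C0).range
  let e : Γ(C, C0) ≃+* A := RingEquiv.ofBijective (sectionHom c C0).rangeRestrict
    ⟨fun _ _ h => sectionHom_injective c C0 (congrArg Subtype.val h),
      (sectionHom c C0).rangeRestrict_surjective⟩
  set I := Ideal.span {a : Γ(C, C0) | IsAffineOpen (C.basicOpen a)}
  have hI : I.map (e : Γ(C, C0) →+* A) ≠ ⊤ := fun h => htop (by
    rw [← Ideal.comap_map_of_bijective (e : Γ(C, C0) →+* A) e.bijective (I := I), h,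
      Ideal.comap_top])
  obtain ⟨y, hy⟩ : ∃ y : C, y ∈ C0 ∧ IsClosed ({y} : Set C) := by
    have : JacobsonSpace C := LocallyOfFiniteType.jacobsonSpace c
    obtain ⟨y, hy⟩ := nonempty_inter_closedPoints (Z := (C0 : Set C))
      (by simpa [Set.nonempty_coe_sort] using ‹Nonempty C0›) C0.isOpen.isLocallyClosed
    exact ⟨y, hy.1, hy.2⟩
  obtain ⟨a₁, ha₁, hya₁⟩ := hloc y hy.2 hy.1
  obtain ⟨w, hw, hw1⟩ := FF.exists_place_of_ideal (K := k) (A := A)
    (fun a => ⟨structureHom c C0 a, sectionHom_structureHom c C0 a⟩) (I.map (e : Γ(C, C0) →+* A)) hI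
    (c := e a₁) (Ideal.mem_map_of_mem _ (Ideal.subset_span ha₁))
    (fun h => (mem_basicOpen_iff c C0 hy.2 hy.1 a₁).1 hya₁ (by
      have : sectionHom c C0 a₁ = 0 := congrArg Subtype.val h
      rw [this]; exact zero_mem _))
  obtain ⟨x, hcl, rfl⟩ := exists_placeAt_eq c w
  by_cases hx : x ∈ C0
  · obtain ⟨a, ha, hxa⟩ := hloc x hcl hx
    exact (mem_basicOpen_iff c C0 hcl hx a).1 hxa
      (hw1 (e a) (Ideal.mem_map_of_mem _ (Ideal.subset_span ha)))
  · obtain rfl : x = x₀ := by by_contra h; exact hx (hmem.2 h)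
    obtain ⟨n₀, hn₀⟩ := exists_ord_eq c v₀
    obtain ⟨f, hf0, hfv, hfw⟩ := hn₀ (n₀ + 1) (by omega)
    obtain ⟨a, ha⟩ := exists_sectionHom_eq_of_ord_nonneg c C0 (f := f)
      fun z hz hzcl => FF.mem_ordGE_of_le _ (hfw _ (hne hzcl hz))
    have := hw f ⟨a, ha⟩
    change 0 ≤ v₀.ord f at this
    omega

end Fermat.Agent.Jac.Curve
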