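/-
Expansion of functions at a rational point in a local equation `t`.
-/
import Mathlib

set_option autoImplicit false

noncomputable section

namespace Fermat.Agent.Jac.Curve

universe u v

variable {k : Type u} [Field k] {A : Type v} [CommRing A] [Algebra k A]

/-- `t` is an equation of the rational point `φ`. -/
structure IsPointEquation (φ : A →ₐ[k] k) (t : A) : Prop where
  ne_zero : t ≠ 0
  map_t : φ t = 0
  dvd : ∀ a, φ a = 0 → t ∣ a

namespace IsPointEquation

variable [IsDomain A] {φ : A →ₐ[k] k} {t : A}

theorem eq_zero_of_algebraMap_dvd (h : IsPointEquation φ t) {c : k}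
    (hc : t ∣ algebraMap k A c) : c = 0 := by
  obtain ⟨b, hb⟩ := hc
  have := congrArg φ hb
  simpa [h.map_t] using this

/-- The quotient of `a - a(φ)` by `t`. -/
def quot (h : IsPointEquation φ t) (a : A) : A :=
  (h.dvd (a - algebraMap k A (φ a)) (by simp)).choose

theorem eq_add_mul_quot (h : IsPointEquation φ t) (a : A) :
    a = algebraMap k A (φ a) + t * h.quot a := by
  rw [quot, ← (h.dvd (a - algebraMap k A (φ a)) (by simp)).choose_spec]
  ring

/-- The expansion as a function. -/
def series (h : IsPointEquation φ t) (a : A) : PowerSeries k :=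
  PowerSeries.mk fun n => φ (h.quot^[n] a)

theorem dvd_sub_trunc_series (h : IsPointEquation φ t) (a : A) (n : ℕ) :
    a - Polynomial.aeval t (PowerSeries.trunc n (h.series a)) = t ^ n * h.quot^[n] a := by
  induction n with
  | zero => simp
  | succ n ih =>
    rw [PowerSeries.trunc_succ, map_add, ← sub_sub, ih, Polynomial.aeval_monomial, series,
      PowerSeries.coeff_mk, Function.iterate_succ_apply', pow_succ]
    linear_combination t ^ n * h.eq_add_mul_quot (h.quot^[n] a)

theorem series_unique (h : IsPointEquation φ t) {a : A} {g : PowerSeries k}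
    (hg : ∀ n, t ^ n ∣ a - Polynomial.aeval t (PowerSeries.trunc n g)) : g = h.series a := by
  ext n
  induction n using Nat.strong_induction_on with
  | _ n ih =>
    have ht : PowerSeries.trunc n g = PowerSeries.trunc n (h.series a) := by
      ext i
      rw [PowerSeries.coeff_trunc, PowerSeries.coeff_trunc]
      split
      · exact ih i ‹_›
      · rfl
    have h1 := hg (n + 1)
    have h2 : t ^ (n + 1) ∣ a - Polynomial.aeval t (PowerSeries.trunc (n + 1) (h.series a)) :=
      ⟨_, h.dvd_sub_trunc_series a (n + 1)⟩
    rw [PowerSeries.trunc_succ, map_add, Polynomial.aeval_monomial, ht] at h1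
    rw [PowerSeries.trunc_succ, map_add, Polynomial.aeval_monomial] at h2
    have h3 := dvd_sub h1 h2
    rw [show ∀ x y z w : A, x - (y + z) - (x - (y + w)) = w - z by intros; ring, ← sub_mul,
      ← map_sub, pow_succ, mul_comm (algebraMap k A _) (t ^ n),
      mul_dvd_mul_iff_left (pow_ne_zero n h.ne_zero)] at h3
    exact (sub_eq_zero.1 (h.eq_zero_of_algebraMap_dvd h3)).symm

theorem series_const (h : IsPointEquation φ t) (c : k) :
    h.series (algebraMap k A c) = PowerSeries.C c := by
  refine (h.series_unique fun n => ?_).symm
  cases n with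
  | zero => simp
  | succ n => simp [PowerSeries.trunc_C]

/-- The expansion. -/
def expansion (h : IsPointEquation φ t) : A →ₐ[k] PowerSeries k where
  toFun := h.series
  map_one' := by rw [← map_one (algebraMap k A), h.series_const, map_one]
  map_zero' := by rw [← map_zero (algebraMap k A), h.series_const, map_zero]
  map_add' a b := (h.series_unique fun n => by
    have := dvd_add (Dvd.intro _ (h.dvd_sub_trunc_series a n).symm)
      (Dvd.intro _ (h.dvd_sub_trunc_series b n).symm)
    convert! this using 1
    rw [map_add, map_add]
    ring).symm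
  map_mul' a b := (h.series_unique fun n => by
    obtain ⟨r, hr⟩ : (Polynomial.X : Polynomial k) ^ n ∣
        PowerSeries.trunc n (h.series a) * PowerSeries.trunc n (h.series b) -
          PowerSeries.trunc n (h.series a * h.series b) := by
      rw [Polynomial.X_pow_dvd_iff]
      intro d hd
      rw [Polynomial.coeff_sub, PowerSeries.coeff_trunc, if_pos hd,
        PowerSeries.coeff_mul_eq_coeff_trunc_mul_trunc _ _ hd, ← Polynomial.coe_mul,
        Polynomial.coeff_coe, sub_self]
    have hr' := congrArg (Polynomial.aeval t) hr
    simp only [map_sub, map_mul, map_pow, Polynomial.aeval_X] at hr'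
    set ta := Polynomial.aeval t (PowerSeries.trunc n (h.series a))
    set tb := Polynomial.aeval t (PowerSeries.trunc n (h.series b))
    refine ⟨h.quot^[n] a * b + ta * h.quot^[n] b + Polynomial.aeval t r, ?_⟩
    linear_combination b * h.dvd_sub_trunc_series a n + ta * h.dvd_sub_trunc_series b n + hr').symm
  commutes' c := by rw [h.series_const]; rfl

theorem expansion_t (h : IsPointEquation φ t) : h.expansion t = PowerSeries.X := by
  refine (h.series_unique fun n => ?_).symm
  match n with
  | 0 => simp
  | 1 => simp
  | n + 2 => simp [PowerSeries.trunc_X]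

theorem constantCoeff_expansion (h : IsPointEquation φ t) (a : A) :
    PowerSeries.constantCoeff (h.expansion a) = φ a := by
  rw [← PowerSeries.coeff_zero_eq_constantCoeff_apply]
  simp [expansion, series]

theorem pow_dvd_iff (h : IsPointEquation φ t) (a : A) (n : ℕ) :
    t ^ n ∣ a ↔ ∀ i < n, PowerSeries.coeff i (h.expansion a) = 0 := by
  constructor
  · rintro ⟨b, rfl⟩ i hi
    rw [map_mul, map_pow, h.expansion_t, PowerSeries.coeff_X_pow_mul', if_neg (by omega)]
  · intro hz
    have : PowerSeries.trunc n (h.series a) = 0 := by
      ext i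
      rw [PowerSeries.coeff_trunc]
      split
      · exact hz i ‹_›
      · rfl
    refine ⟨h.quot^[n] a, ?_⟩
    rw [← h.dvd_sub_trunc_series a n, this, map_zero, sub_zero]

theorem expansion_injective [IsNoetherianRing A] (h : IsPointEquation φ t) :
    Function.Injective h.expansion := by
  rw [injective_iff_map_eq_zero]
  intro a ha
  have hne : Ideal.span {t} ≠ ⊤ := by
    rw [Ne, Ideal.span_singleton_eq_top]
    intro hu
    have := hu.map φ
    rw [h.map_t] at this
    exact not_isUnit_zero this
  have hmem : a ∈ ⨅ n, Ideal.span {t} ^ n := by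
    simp only [Submodule.mem_iInf, Ideal.span_singleton_pow, Ideal.mem_span_singleton]
    exact fun n => (h.pow_dvd_iff a n).2 fun i _ => by rw [ha, map_zero]
  rw [Ideal.iInf_pow_eq_bot_of_isDomain _ hne] at hmem
  exact Ideal.mem_bot.1 hmem

theorem isUnit_expansion_t (h : IsPointEquation φ t) :
    IsUnit (((HahnSeries.ofPowerSeries ℤ k).comp h.expansion.toRingHom) t) := by
  rw [RingHom.comp_apply, AlgHom.toRingHom_eq_coe, RingHom.coe_coe, h.expansion_t,
    HahnSeries.ofPowerSeries_X]
  exact isUnit_iff_ne_zero.2 (HahnSeries.single_ne_zero one_ne_zero)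

/-- The expansion of functions with poles along `t = 0`. -/
def expansionAway (h : IsPointEquation φ t) (B : Type v) [CommRing B] [Algebra A B]
    [IsLocalization.Away t B] : B →+* LaurentSeries k :=
  IsLocalization.Away.lift t h.isUnit_expansion_t

@[simp]
theorem expansionAway_algebraMap (h : IsPointEquation φ t) (B : Type v) [CommRing B] [Algebra A B]
    [IsLocalization.Away t B] (a : A) :
    h.expansionAway B (algebraMap A B a) = HahnSeries.ofPowerSeries ℤ k (h.expansion a) :=
  IsLocalization.Away.lift_eq t h.isUnit_expansion_t a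

theorem expansionAway_injective [IsNoetherianRing A] (h : IsPointEquation φ t) (B : Type v)
    [CommRing B] [Algebra A B] [IsLocalization.Away t B] :
    Function.Injective (h.expansionAway B) := by
  rw [injective_iff_map_eq_zero]
  intro b hb
  obtain ⟨n, a, hab⟩ := IsLocalization.Away.surj t b
  have h1 := congrArg (h.expansionAway B) hab
  rw [map_mul, hb, zero_mul, expansionAway_algebraMap] at h1
  have ha : a = 0 := h.expansion_injective (by
    rw [map_zero]
    exact HahnSeries.ofPowerSeries_injective (Γ := ℤ) (by rw [map_zero]; exact h1.symm))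
  rw [ha, map_zero] at hab
  exact ((IsLocalization.Away.algebraMap_pow_isUnit t n).mul_left_eq_zero).1 hab

theorem coeff_expansionAway_mul_t_pow (h : IsPointEquation φ t) (B : Type v) [CommRing B]
    [Algebra A B] [IsLocalization.Away t B] (b : B) (n : ℕ) (i : ℤ) :
    (h.expansionAway B (b * algebraMap A B t ^ n)).coeff (i + n) =
      (h.expansionAway B b).coeff i := by
  rw [map_mul, map_pow, expansionAway_algebraMap, h.expansion_t, ← map_pow,
    HahnSeries.ofPowerSeries_X_pow, HahnSeries.coeff_mul_single_add, mul_one]

/-- A function without pole in its expansion is regular. -/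
theorem mem_range_of_no_pole (h : IsPointEquation φ t) (B : Type v) [CommRing B]
    [Algebra A B] [IsLocalization.Away t B] (b : B)
    (hb : ∀ i : ℤ, i < 0 → (h.expansionAway B b).coeff i = 0) :
    b ∈ Set.range (algebraMap A B) := by
  obtain ⟨n, a, hab⟩ := IsLocalization.Away.surj t b
  have hdvd : t ^ n ∣ a := (h.pow_dvd_iff a n).2 fun i hi => by
    have h1 := h.coeff_expansionAway_mul_t_pow B b n ((i : ℤ) - n)
    rw [hab, expansionAway_algebraMap, sub_add_cancel, HahnSeries.ofPowerSeries_apply_coeff] at h1
    rw [h1]
    exact hb _ (by omega)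
  obtain ⟨c, rfl⟩ := hdvd
  refine ⟨c, (IsLocalization.Away.algebraMap_pow_isUnit t n).mul_right_cancel ?_⟩
  rw [hab, map_mul, map_pow, mul_comm]

end IsPointEquation

end Fermat.Agent.Jac.Curve
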