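/-
The two-chart model of a pointed smooth proper curve.
-/
import Fermat.Agent.Jac.Curve.Complement
import Fermat.Agent.Jac.Curve.Expansion

set_option autoImplicit false
set_option linter.unusedSectionVars false

noncomputable section

open CategoryTheory AlgebraicGeometry TopologicalSpace Opposite AlgebraicCurve NeronModelInfra

namespace Fermat.Agent.Jac.Curve

universe u

variable {k : Type u} [Field k] [IsAlgClosed k] {C : Scheme.{u}}
  (c : C ⟶ Spec (CommRingCat.of k)) [IsIntegral C] [IsProper c] [SmoothOfRelativeDimension 1 c]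
  (ε : SchemeHomOver (𝟙 (Spec (CommRingCat.of k))) c)

/-- The marked point. -/
def markedPoint : C := ε.1 (IsLocalRing.closedPoint k)

theorem range_eq_markedPoint : Set.range ε.1 = {markedPoint c ε} := by
  ext y
  constructor
  · rintro ⟨z, rfl⟩
    rw [Subsingleton.elim z (IsLocalRing.closedPoint k)]
    rfl
  · rintro rfl
    exact ⟨_, rfl⟩

theorem isClosed_markedPoint : IsClosed ({markedPoint c ε} : Set C) :=
  (pointEquivClosedPoint c ⟨ε.1, ε.2⟩).2

/-- Evaluation at the marked point. -/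
def evalMarked (U : C.Opens) (hU : markedPoint c ε ∈ U) : Γ(C, U) →+* k :=
  (ε.1.appLE U ⊤ (fun z _ => by
    rw [Scheme.Hom.mem_preimage, Subsingleton.elim z (IsLocalRing.closedPoint k)]
    exact hU) ≫ (Scheme.ΓSpecIso (CommRingCat.of k)).hom).hom

theorem evalMarked_res {U V : C.Opens} (h : V ≤ U) (hV : markedPoint c ε ∈ V) (a : Γ(C, U)) :
    evalMarked c ε V hV (res h a) = evalMarked c ε U (h hV) a :=
  congrArg (Scheme.ΓSpecIso (CommRingCat.of k)).hom (appLEHom_res ε.1 _ h a)

theorem evalMarked_structureHom (U : C.Opens) (hU : markedPoint c ε ∈ U) (a : k) :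
    evalMarked c ε U hU (structureHom c U a) = a := by
  have h := appLEHom_appLEHom ε.1 c (U := ⊤) (V := U) (W := ⊤)
    (fun z _ => by
      rw [Scheme.Hom.mem_preimage, Subsingleton.elim z (IsLocalRing.closedPoint k)]
      exact hU) (fun _ _ => trivial) ((Scheme.ΓSpecIso (CommRingCat.of k)).inv a)
  rw [appLEHom_congr ε.2, appLEHom_id, res_self] at h
  simp only [evalMarked, structureHom, CommRingCat.hom_comp, RingHom.comp_apply]
  refine (congrArg (Scheme.ΓSpecIso (CommRingCat.of k)).hom h).trans ?_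
  exact ConcreteCategory.congr_hom (Scheme.ΓSpecIso (CommRingCat.of k)).inv_hom_id a

theorem evalMarked_eq_zero_iff (U : C.Opens) (hU : markedPoint c ε ∈ U) (a : Γ(C, U)) :
    evalMarked c ε U hU a = 0 ↔ markedPoint c ε ∉ C.basicOpen a := by
  rw [C.mem_basicOpen a _ hU]
  constructor
  · intro h hu
    obtain ⟨W, hxW, b, hb⟩ : ∃ (W : C.Opens) (_ : markedPoint c ε ∈ W) (b : Γ(C, W)),
        C.presheaf.germ W _ ‹_› b * C.presheaf.germ U _ hU a = 1 := by
      obtain ⟨s, hs⟩ := hu.exists_left_inv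
      obtain ⟨W, hW, b, rfl⟩ := C.presheaf.exists_germ_eq s
      exact ⟨W, hW, b, hs⟩
    have hle : W ⊓ U ≤ W := inf_le_left
    have key : C.presheaf.germ (W ⊓ U) _ ⟨hxW, hU⟩ (res hle b * res inf_le_right a) =
        C.presheaf.germ (W ⊓ U) _ ⟨hxW, hU⟩ 1 := by
      rw [map_mul, map_one, res, res]
      erw [C.presheaf.germ_res_apply, C.presheaf.germ_res_apply]
      exact hb
    obtain ⟨Z, hZ, i₁, i₂, e⟩ := C.presheaf.germ_eq _ _ _ _ _ key
    have e' := congrArg (evalMarked c ε Z hZ) e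
    change evalMarked c ε Z hZ (res i₁.le _) = evalMarked c ε Z hZ (res i₂.le _) at e'
    rw [map_mul, map_mul, res_res, res_res, map_one, map_one, evalMarked_res, evalMarked_res,
      h, mul_zero] at e'
    exact zero_ne_one e'
  · intro hn
    by_contra h
    apply hn
    have h1 : IsUnit (ε.1.appLE U ⊤ (fun z _ => by
        rw [Scheme.Hom.mem_preimage, Subsingleton.elim z (IsLocalRing.closedPoint k)]
        exact hU) a) := by
      refine (MulEquiv.isUnit_map
        (Scheme.ΓSpecIso (CommRingCat.of k)).commRingCatIsoToRingEquiv.toMulEquiv).1 ?_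
      exact isUnit_iff_ne_zero.2 h
    have h2 := (Scheme.basicOpen_of_isUnit _ h1).ge
      (show IsLocalRing.closedPoint k ∈ (⊤ : (Spec (CommRingCat.of k)).Opens) from trivial)
    rw [Scheme.basicOpen_appLE] at h2
    exact (C.mem_basicOpen a _ hU).1 h2.2

theorem bijective_structureHom_top : Function.Bijective (structureHom c ⊤) := by
  letI := openAlgebra c (⊤ : C.Opens)
  have h1 : (structureHom c ⊤).Finite := by
    refine RingHom.Finite.comp ?_ (RingHom.Finite.of_surjective _
      (Scheme.ΓSpecIso (CommRingCat.of k)).symm.commRingCatIsoToRingEquiv.surjective)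
    have := finite_appTop_of_universallyClosed k c
    rwa [Scheme.Hom.appTop, Scheme.Hom.app_eq_appLE] at this
  have : Module.Finite k Γ(C, ⊤) := h1
  have : Algebra.IsIntegral k Γ(C, ⊤) := Algebra.IsIntegral.of_finite k _
  exact IsAlgClosed.algebraMap_bijective_of_isIntegral

include c in
theorem genericPoint_ne_markedPoint : genericPoint C ≠ markedPoint c ε := by
  intro h
  refine regularAt_ne_top c (isClosed_markedPoint c ε) (top_unique fun f _ => ?_)
  rw [← h]
  exact genericPoint_regular c f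

/-- A local equation of the marked point on an affine neighbourhood. -/
theorem exists_equation : ∃ (C1 : C.Opens) (_ : IsAffineOpen C1) (h1 : markedPoint c ε ∈ C1)
    (t : Γ(C, C1)), evalMarked c ε C1 h1 t = 0 ∧
      (∀ a, evalMarked c ε C1 h1 a = 0 → t ∣ a) ∧
      ∀ x ∈ C1, x ∈ C.basicOpen t ↔ x ≠ markedPoint c ε := by
  obtain ⟨_, ⟨U, hU, rfl⟩, hxU, -⟩ :=
    C.isBasis_affineOpens.exists_subset_of_mem_open (Set.mem_univ (markedPoint c ε)) isOpen_univ
  have : Nonempty U := ⟨⟨_, hxU⟩⟩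
  obtain ⟨hD, hnf⟩ := isDedekindDomain_affine c hU
  set p := hU.primeIdealOf ⟨_, hxU⟩
  have hp : p.asIdeal.IsMaximal :=
    isMaximal_primeIdealOf_of_isClosed c hU hxU (isClosed_markedPoint c ε)
  have hp0 : p.asIdeal ≠ ⊥ := Ring.ne_bot_of_isMaximal_of_not_isField hp hnf
  have hmem : ∀ (x : C) (hx : x ∈ U) (a : Γ(C, U)),
      x ∈ C.basicOpen a ↔ a ∉ (hU.primeIdealOf ⟨x, hx⟩).asIdeal := by
    intro x hx a
    rw [← PrimeSpectrum.mem_basicOpen a (hU.primeIdealOf ⟨x, hx⟩), ← hU.fromSpec_preimage_basicOpen]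
    change _ ↔ hU.fromSpec (hU.primeIdealOf ⟨x, hx⟩) ∈ C.basicOpen a
    rw [hU.fromSpec_primeIdealOf]
  obtain ⟨π, hπ, hπ2⟩ : ∃ π ∈ p.asIdeal, π ∉ p.asIdeal ^ 2 := by
    refine SetLike.exists_of_lt ?_
    simpa using Ideal.pow_succ_lt_pow (P := p.asIdeal) hp0 1
  obtain ⟨J, hJ⟩ := Ideal.dvd_iff_le.2 ((Ideal.span_singleton_le_iff_mem _).2 hπ)
  have hJp : ¬ J ≤ p.asIdeal := fun hle => hπ2 (by
    rw [sq]
    exact Ideal.mul_mono_right hle (hJ ▸ Ideal.mem_span_singleton_self π))
  obtain ⟨h, hhJ, hhp⟩ := SetLike.not_le_iff_exists.1 hJp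
  have hh1 : markedPoint c ε ∈ C.basicOpen h := (hmem _ hxU h).2 hhp
  have hhπ : ∀ b ∈ p.asIdeal, π ∣ b * h := fun b hb =>
    Ideal.mem_span_singleton.1 (hJ ▸ Ideal.mul_mem_mul hb hhJ)
  refine ⟨C.basicOpen h, hU.basicOpen h, hh1, res (C.basicOpen_le h) π, ?_, ?_, ?_⟩
  · rw [evalMarked_res, evalMarked_eq_zero_iff, hmem _ hxU]
    simpa using hπ
  · intro a ha
    have := hU.isLocalization_basicOpen h
    obtain ⟨j, b, hab⟩ := IsLocalization.Away.surj h a
    have halg : ∀ z, algebraMap Γ(C, U) Γ(C, C.basicOpen h) z = res (C.basicOpen_le h) z :=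
      fun z => rfl
    have hbp : b ∈ p.asIdeal := by
      have h1 := congrArg (evalMarked c ε _ hh1) hab
      rw [map_mul, ha, zero_mul, halg, evalMarked_res] at h1
      by_contra hb
      exact (evalMarked_eq_zero_iff c ε U hxU b).1 h1.symm ((hmem _ hxU b).2 hb)
    have h2 : res (C.basicOpen_le h) π ∣ a * (algebraMap Γ(C, U) Γ(C, C.basicOpen h) h) ^ (j + 1) := by
      rw [pow_succ, ← mul_assoc, hab, ← map_mul]
      exact map_dvd (res (C.basicOpen_le h)) (hhπ b hbp)
    exact ((IsLocalization.Away.algebraMap_isUnit h).pow (j + 1)).dvd_mul_right.1 h2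
  · intro x hx
    have hxU' : x ∈ U := C.basicOpen_le h hx
    change x ∈ C.basicOpen ((C.presheaf.map (homOfLE (C.basicOpen_le h)).op).hom π) ↔ _
    rw [C.basicOpen_res]
    constructor
    · rintro ⟨-, hxπ⟩ rfl
      exact (hmem _ hxU π).1 hxπ hπ
    · intro hne
      refine ⟨hx, (hmem x hxU' π).2 fun hxπ => hne ?_⟩
      have hle : p.asIdeal ≤ (hU.primeIdealOf ⟨x, hxU'⟩).asIdeal := by
        intro b hb
        obtain ⟨d, hd⟩ := hhπ b hb
        have : b * h ∈ (hU.primeIdealOf ⟨x, hxU'⟩).asIdeal := hd ▸ Ideal.mul_mem_right d _ hxπ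
        exact ((hU.primeIdealOf ⟨x, hxU'⟩).isPrime.mem_or_mem this).resolve_right
          ((hmem x hxU' h).1 hx)
      have heq : p = hU.primeIdealOf ⟨x, hxU'⟩ :=
        PrimeSpectrum.ext (hp.eq_of_le (hU.primeIdealOf ⟨x, hxU'⟩).isPrime.ne_top hle)
      have := congrArg hU.fromSpec heq
      rw [hU.fromSpec_primeIdealOf, hU.fromSpec_primeIdealOf] at this
      exact this.symm

/-- Existence of the two-chart model. -/
theorem exists_curveModel : Nonempty (CurveModel c ε) := by
  classical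
  obtain ⟨C1, hC1, h1, t, ht0, htd, htmem⟩ := exists_equation c ε
  have hcl := isClosed_markedPoint c ε
  set x₀ := markedPoint c ε
  let C0 : C.Opens := ⟨{x₀}ᶜ, hcl.isOpen_compl⟩
  have hgen0 : genericPoint C ∈ C0 := genericPoint_ne_markedPoint c ε
  have : Nonempty C0 := ⟨⟨_, hgen0⟩⟩
  have : Nonempty C1 := ⟨⟨_, h1⟩⟩
  have hgen1 : genericPoint C ∈ C1 :=
    ((genericPoint_spec C).mem_open_set_iff C1.isOpen).2 ⟨x₀, trivial, h1⟩
  have : Nonempty (C0 ⊓ C1 : C.Opens) := ⟨⟨_, hgen0, hgen1⟩⟩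
  have hC0 : IsAffineOpen C0 := isAffineOpen_compl c hcl C0 rfl
  have hbo : C.basicOpen t = C0 ⊓ C1 := by
    ext x
    constructor
    · intro hx
      exact ⟨(htmem x (C.basicOpen_le t hx)).1 hx, C.basicOpen_le t hx⟩
    · rintro ⟨hx0, hx1⟩
      exact (htmem x hx1).2 hx0
  letI := openAlgebra c C1
  obtain ⟨hD1, -⟩ := isDedekindDomain_affine c hC1
  let φ : Γ(C, C1) →ₐ[k] k :=
    { evalMarked c ε C1 h1 with commutes' := fun a => evalMarked_structureHom c ε C1 h1 a }
  have hφ : IsPointEquation φ t := ⟨fun h0 => by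
      have : x₀ ≠ genericPoint C := (genericPoint_ne_markedPoint c ε).symm
      have hg := (htmem _ hgen1).2 this.symm
      rw [h0, Scheme.basicOpen_zero] at hg
      exact hg, ht0, htd⟩
  let B := Γ(C, C.basicOpen t)
  have := hC1.isLocalization_basicOpen t
  have : Nonempty (C.basicOpen t) := ⟨⟨_, hbo.ge (show genericPoint C ∈ C0 ⊓ C1 from ⟨hgen0, hgen1⟩)⟩⟩
  let e01 : Γ(C, C0 ⊓ C1) →+* LaurentSeries k := (hφ.expansionAway B).comp (res hbo.le)
  have he1 : ∀ f : Γ(C, C1), e01 (res inf_le_right f) =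
      HahnSeries.ofPowerSeries ℤ k (hφ.expansion f) := by
    intro f
    rw [← hφ.expansionAway_algebraMap B f]
    exact congrArg (hφ.expansionAway B) (res_res hbo.le inf_le_right f)
  have hconst0 : ∀ a : k, e01 (res inf_le_left (structureHom c C0 a)) = HahnSeries.C a := by
    intro a
    rw [res_structureHom, ← res_structureHom c (inf_le_right : C0 ⊓ C1 ≤ C1), he1]
    rw [show hφ.expansion (structureHom c C1 a) = PowerSeries.C a from hφ.expansion.commutes a,
      HahnSeries.ofPowerSeries_C]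
  have hexp0inj : Function.Injective fun f => e01 (res (inf_le_left : C0 ⊓ C1 ≤ C0) f) := by
    intro a b hab
    have h2 := hφ.expansionAway_injective B hab
    have h3 := congrArg (sectionHom c (C.basicOpen t)) h2
    rw [res_res, res_res, sectionHom_res, sectionHom_res] at h3
    exact sectionHom_injective c C0 h3
  -- order of `t` at the marked point
  set v₀ := placeAt c x₀ hcl
  have ht1 : sectionHom c C1 t ∈ FF.ordGE v₀ 1 := by
    by_contra h
    exact (evalMarked_eq_zero_iff c ε C1 h1 t).1 ht0 ((mem_basicOpen_iff c C1 hcl h1 t).2 h)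
  have htF0 : sectionHom c C1 t ≠ 0 := fun h => hφ.ne_zero
    (sectionHom_injective c C1 (h.trans (map_zero _).symm))
  have hordt : v₀.ord (sectionHom c C1 t) = 1 := by
    refine le_antisymm ?_ (FF.le_ord_of_mem_ordGE _ ht1 htF0)
    obtain ⟨g, hg0, hg1⟩ := FF.exists_ord_eq_one v₀
    obtain ⟨s, hs⟩ : g ∈ regularAt c x₀ :=
      (mem_placeAt c).1 ((FF.mem_iff_ord_nonneg v₀).2 (by omega))
    letI := C.presheaf.algebra_section_stalk (⟨x₀, h1⟩ : C1)
    have := hC1.isLocalization_stalk ⟨x₀, h1⟩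
    obtain ⟨⟨a, b⟩, hab⟩ := IsLocalization.surj (hC1.primeIdealOf ⟨x₀, h1⟩).asIdeal.primeCompl s
    have hbu : IsUnit (C.presheaf.germ C1 x₀ h1 b.1) :=
      IsLocalization.map_units (C.presheaf.stalk x₀) b
    have hb1 : sectionHom c C1 b.1 ∉ FF.ordGE v₀ 1 :=
      (mem_basicOpen_iff c C1 hcl h1 b.1).1 ((C.mem_basicOpen _ _ h1).2 hbu)
    have hab' : g * sectionHom c C1 b.1 = sectionHom c C1 a := by
      rw [← hs, ← stalkHom_germ c C1 x₀ h1 b.1, ← stalkHom_germ c C1 x₀ h1 a, ← map_mul]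
      exact congrArg _ hab
    rw [FF.mem_ordGE, not_or, not_le] at hb1
    have hb0 := FF.le_ord_of_mem_ordGE v₀ (sectionHom_mem_ordGE_zero c C1 hcl h1 b.1) hb1.1
    have ha0 : sectionHom c C1 a ≠ 0 := hab' ▸ mul_ne_zero hg0 hb1.1
    have horda : v₀.ord (sectionHom c C1 a) = 1 := by
      rw [← hab', v₀.ord_mul hg0 hb1.1]; omega
    have hdvd : t ∣ a := htd a ((evalMarked_eq_zero_iff c ε C1 h1 a).2 fun hx =>
      (mem_basicOpen_iff c C1 hcl h1 a).1 hx (FF.mem_ordGE_of_le _ horda.ge))
    obtain ⟨a', rfl⟩ := hdvd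
    rw [map_mul] at ha0 horda
    have ha' := right_ne_zero_of_mul ha0
    rw [v₀.ord_mul htF0 ha'] at horda
    have := FF.le_ord_of_mem_ordGE v₀ (sectionHom_mem_ordGE_zero c C1 hcl h1 a') ha'
    omega
  have hne : ∀ {x : C} (hx : IsClosed ({x} : Set C)), x ≠ x₀ → placeAt c x hx ≠ v₀ := by
    intro x hx hxne h
    exact hxne (eq_of_regularAt_eq c hx (SetLike.ext fun f => by
      rw [← mem_placeAt c (hcl := hx), h, mem_placeAt]))
  letI := openAlgebra c C0
  have : Algebra.FiniteType k Γ(C, C0) :=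
    RingHom.finiteType_algebraMap.1 (finiteType_structureHom c hC0)
  refine ⟨{
    C0 := C0
    C1 := C1
    affine0 := hC0
    affine1 := hC1
    coe_C0 := by rw [range_eq_markedPoint]; rfl
    eps_mem := fun z _ => by
      rw [Scheme.Hom.mem_preimage, Subsingleton.elim z (IsLocalRing.closedPoint k)]
      exact h1
    t := t
    basicOpen_t := hbo
    exp0 := e01.comp (res inf_le_left)
    exp1 := hφ.expansion.toRingHom
    exp01 := e01
    exp01_res0 := fun f => rfl
    exp01_res1 := he1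
    exp0_const := hconst0
    exp1_const := fun a => hφ.expansion.commutes a
    exp0_injective := hexp0inj
    exp1_injective := hφ.expansion_injective
    exp1_t := hφ.expansion_t
    constantCoeff_exp1 := hφ.constantCoeff_expansion
    t_dvd := fun f hf => htd f ((hφ.constantCoeff_expansion f).symm.trans hf)
    const_of_no_pole := ?_
    exists_pole := ?_
    finiteType := ‹_›
    dedekind := fun K _ _ => isDedekindDomain_tensor k K _ (kaehler_affine c hC0).1 }⟩
  · intro f hf
    obtain ⟨b, hb⟩ := hφ.mem_range_of_no_pole B (res hbo.le (res inf_le_left f)) hf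
    have hbF : sectionHom c C1 b = sectionHom c C0 f := by
      have h3 := congrArg (sectionHom c (C.basicOpen t)) hb
      change sectionHom c _ (res (C.basicOpen_le t) b) = _ at h3
      rwa [sectionHom_res, res_res, sectionHom_res] at h3
    obtain ⟨g, hg⟩ := exists_sectionHom_eq c ⊤ (f := sectionHom c C0 f) fun x _ => by
      by_cases hx : x = x₀
      · rw [← hbF]; exact sectionHom_mem c C1 (hx ▸ h1) b
      · exact sectionHom_mem c C0 hx f
    obtain ⟨a, rfl⟩ := (bijective_structureHom_top c).2 g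
    refine ⟨a, sectionHom_injective c C0 ?_⟩
    rw [← hg, sectionHom_structureHom, sectionHom_structureHom]
  · obtain ⟨n₀, hn₀⟩ := exists_ord_eq c v₀
    refine ⟨n₀, fun n hn => ?_⟩
    obtain ⟨f, hf0, hfv, hfw⟩ := hn₀ n hn
    obtain ⟨a, ha⟩ := exists_sectionHom_eq_of_ord_nonneg c C0 (f := f)
      fun z hz hzcl => FF.mem_ordGE_of_le _ (hfw _ (hne hzcl hz))
    set g := f * sectionHom c C1 t ^ n with hgdef
    have hg0 : g ≠ 0 := mul_ne_zero hf0 (pow_ne_zero _ htF0)
    have hgord : v₀.ord g = 0 := by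
      rw [hgdef, v₀.ord_mul hf0 (pow_ne_zero _ htF0), FF.ord_pow, hordt, hfv]; omega
    obtain ⟨α, hα⟩ := exists_sectionHom_eq_of_ord_nonneg c C1 (f := g) fun z hz hzcl => by
      by_cases hzx : z = x₀
      · subst hzx
        exact FF.mem_ordGE_of_le _ hgord.ge
      · have h1 : f ∈ FF.ordGE (placeAt c z hzcl) 0 :=
          FF.mem_ordGE_of_le _ (hfw _ (hne hzcl hzx))
        have h2 : sectionHom c C1 t ^ n ∈ FF.ordGE (placeAt c z hzcl) 0 := by
          rw [← map_pow]; exact sectionHom_mem_ordGE_zero c C1 hzcl hz _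
        simpa using FF.mul_mem_ordGE _ h1 h2
    have hφα : φ α ≠ 0 := by
      intro h0
      refine (evalMarked_eq_zero_iff c ε C1 h1 α).1 h0 ((mem_basicOpen_iff c C1 hcl h1 α).2 ?_)
      rw [hα, FF.mem_ordGE]
      simp only [hg0, false_or, not_le]
      exact hgord.le.trans_lt one_pos
    have hbα : res hbo.le (res inf_le_left a) * algebraMap Γ(C, C1) B t ^ n =
        algebraMap Γ(C, C1) B α := by
      apply sectionHom_injective c (C.basicOpen t)
      change sectionHom c _ (_ * res (C.basicOpen_le t) t ^ n) =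
        sectionHom c _ (res (C.basicOpen_le t) α)
      rw [map_mul, map_pow, res_res, sectionHom_res, sectionHom_res, sectionHom_res, ha, hα]
    have hcoef : ∀ i : ℤ, (e01 (res inf_le_left a)).coeff i =
        (HahnSeries.ofPowerSeries ℤ k (hφ.expansion α)).coeff (i + n) := fun i => by
      rw [← hφ.expansionAway_algebraMap B, ← hbα, hφ.coeff_expansionAway_mul_t_pow]
      rfl
    refine ⟨structureHom c C0 (φ α)⁻¹ * a, ?_, fun i hi => ?_⟩
    · change (e01 (res inf_le_left _)).coeff _ = 1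
      rw [map_mul, map_mul, hconst0, HahnSeries.C_apply, HahnSeries.coeff_single_zero_mul, hcoef,
        neg_add_cancel, ← Nat.cast_zero, HahnSeries.ofPowerSeries_apply_coeff,
        PowerSeries.coeff_zero_eq_constantCoeff_apply, hφ.constantCoeff_expansion, inv_mul_cancel₀ hφα]
    · change (e01 (res inf_le_left _)).coeff _ = 0
      rw [map_mul, map_mul, hconst0, HahnSeries.C_apply, HahnSeries.coeff_single_zero_mul, hcoef,
        HahnSeries.ofPowerSeries_apply, HahnSeries.embDomain_of_notMem_range, mul_zero]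
      rintro ⟨m, hm⟩
      change (m : ℤ) = i + n at hm
      omega

end Fermat.Agent.Jac.Curve
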